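import Mathlib
import Fermat.Agent.FF2.G2I.Instance
import Fermat.Agent.X0.RR7.HolDiffDef
import Fermat.Agent.FF4.K8Series.Theta
import Fermat.Agent.FF4.K8Series.FreeHecke
import Fermat.Agent.S49.Forms

/-!
# PROGRAMME II, kernel K8 (owner helper19): CONTRACT of `K8q` (findings #1850, #1844)

`N ≥ 1`, `p ∤ N`, `A | p` a valuation subring of `ℚ̄`, `k = ResidueField A`,
`F = Fb N = modularFunctionFieldBar N ⊂ ℚ̄((q))`, `F̃ = modularFunctionFieldFullC k N ⊂ k((q))`,
`redS N hpN A hA` the landed `RedSetup` (Gauss valuation; residue map of the LOCALISED Gauss ring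
`{a / b : a, b ∈ A((q)), b̄ ≠ 0}`, `res (a / b) = ā / b̄` -- NOT coefficientwise, referee's (R2)),
`holDiff ℚ̄ (jBar N)` the landed place form of the holomorphic differentials `h dj` (X0/RR7).

ONE `θ`, ONE formal Hecke operator (helper15's base files, vendored byte-identically):
`Fermat.Agent.FF4.K8Series.theta` (`θ = q d/dq`, `theta_coeff`, `theta_mul`, `coeffMap_theta`),
`Fermat.Agent.FF4.K8Series.T2 ℓ = U_ℓ + ℓ V_ℓ`, and
`Fermat.Agent.FF4.K8Series.liftT2 e : FreeAlgebra ℤ ι →ₐ[ℤ] Module.End ℤ (LaurentSeries R)` for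
`e : ι → Nat.Primes` (`liftT2_ι`, `liftT2_eigen`, `liftT2_smul`).

Typed statements only (each `def … : Prop`); the blocks prove them:

* `redHol`   : `R̃ = res (holDiff(F, j) ∩ O)`, the reductions of the Gauss-integral holomorphic
  differentials;
* `K8qA`     : (a) `p ∣ ord_Q g̃` for all `Q` ⇒ `θ g̃ = g̃ · h̃ · θ j̃` with `h̃ ∈ R̃`   [D1d + D3 + RED-DER];
* `K8qB`     : (b) `θ g̃ = 0 ⇒ g̃` is a `p`-th power in `F̃`                       [Q1];
* `K8qC`     : (c) a word in the `T_ℓ` (`ℓ ∤ N p`) killing `S₂(Γ₀(N))` kills `h̃ · θ j̃` for every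
  `h̃ ∈ R̃` (formal operators on `k((q))`)                     [Q4 + QH' (Gauss form) + RED-DER].
-/

set_option autoImplicit false
set_option linter.unusedSectionVars false

noncomputable section

namespace Fermat.Agent.FF4.K8

open AlgebraicCurve ModularCurve IsLocalRing HahnSeries
open Fermat.Agent.FF4.K8Series (theta liftT2)

section Contract

variable (N : ℕ) [NeZero N] {p : ℕ} [hp : Fact p.Prime] (hpN : ¬ p ∣ N)
variable (A : ValuationSubring (AlgebraicClosure ℚ)) (hA : A.LiesOverPrime p)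

/-- `R̃`: the reductions of the Gauss-integral holomorphic differentials `h dj` of `X₀(N)`. -/
def redHol : Submodule (ResidueField A) ↥(modularFunctionFieldFullC (ResidueField A) N) :=
  (Fermat.Agent.FF2.G2I.redS N hpN A hA).resSpace (Fermat.Agent.Val.residue_surjective' A)
    (Fermat.Agent.X0.RR7.holDiff (AlgebraicClosure ℚ) (Fermat.Agent.X0.jBar N))

/-- **K8q (a)** [D1d + D3 + RED-DER]: if all the orders of `g̃` are divisible by `p`, then
`θ g̃ = g̃ · h̃ · θ j̃` for some `h̃ ∈ R̃`. -/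
def K8qA : Prop :=
  ∀ g : ↥(modularFunctionFieldFullC (ResidueField A) N), g ≠ 0 →
    (∀ Q : Place (ResidueField A) ↥(modularFunctionFieldFullC (ResidueField A) N),
      (p : ℤ) ∣ Q.ord g) →
    ∃ h ∈ redHol N hpN A hA,
      theta (g : LaurentSeries (ResidueField A)) =
        (g : LaurentSeries (ResidueField A)) * (h : LaurentSeries (ResidueField A)) *
          theta (jqModC (ResidueField A))

/-- **K8q (b)** [Q1]: `θ g̃ = 0 ⇒ g̃ ∈ F̃ᵖ`. -/
def K8qB : Prop :=
  ∀ g : ↥(modularFunctionFieldFullC (ResidueField A) N),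
    theta (g : LaurentSeries (ResidueField A)) = 0 →
    ∃ h : ↥(modularFunctionFieldFullC (ResidueField A) N), h ^ p = g

/-- **K8q (c)** [Q4 + QH' + RED-DER]: a word in the Hecke operators `T_ℓ`, `ℓ ∤ N p`, which kills
`S₂(Γ₀(N))` kills `h̃ · θ j̃` for every `h̃ ∈ R̃` (formal operators on `k((q))`). -/
def K8qC : Prop :=
  ∀ (ι : Type) (ℓ : ι → Nat.Primes), (∀ i, ¬ ((ℓ i : ℕ) ∣ N * p)) →
    ∀ w : FreeAlgebra ℤ ι,
      FreeAlgebra.lift ℤ (fun i => Fermat.Agent.S49.heckeFam N (ℓ i)) w = 0 →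
      ∀ h : ↥(modularFunctionFieldFullC (ResidueField A) N), h ∈ redHol N hpN A hA →
        liftT2 (R := ResidueField A) ℓ w
          ((h : LaurentSeries (ResidueField A)) * theta (jqModC (ResidueField A))) = 0

/-- **K8q**, the deliverable of the kernel K8. -/
def K8q : Prop := K8qA N hpN A hA ∧ K8qB (p := p) N A ∧ K8qC N hpN A hA

end Contract

end Fermat.Agent.FF4.K8
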