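import Mathlib
import Fermat.Agent.FF4.K8.Contract

/-!
# PROGRAMME II, kernel K8 (owner helper19): the CONSUMER SEAM of `K8q` (end game, design B)

`g̃ ∈ F̃_N^×` with `p ∣ ord_Q g̃` for all places `Q`, `b := θ g̃ / g̃ ∈ k((q))`.  If `b` is an
eigen-series of the formal Hecke operators `T_{ℓ i}` (`ℓ i ∤ N p`) with eigenvalues `a i ∈ k`, and
`w` is a word in the `T_{ℓ i}` which kills `S₂(Γ₀(N))` but with `a(w) ≠ 0`, then `g̃` is a `p`-th
power in `F̃_N`.

Proof: `b = h̃ · θ j̃` with `h̃ ∈ R̃` (`K8qA`); `w b = 0` (`K8qC`); `w b = a(w) • b`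
(`liftT2_eigen`); hence `b = 0`, `θ g̃ = 0`, and `K8qB` applies.
-/

set_option autoImplicit false
set_option linter.unusedSectionVars false

noncomputable section

namespace Fermat.Agent.FF4.K8

open AlgebraicCurve ModularCurve IsLocalRing HahnSeries
open Fermat.Agent.FF4.K8Series (theta liftT2 T2fam liftT2_eigen T2fam_apply)

variable (N : ℕ) [NeZero N] {p : ℕ} [hp : Fact p.Prime] (hpN : ¬ p ∣ N)
variable (A : ValuationSubring (AlgebraicClosure ℚ)) (hA : A.LiesOverPrime p)

/-- **K8, consumer form.** -/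
theorem k8_endgame (hK8 : K8q N hpN A hA) {ι : Type} (ℓ : ι → Nat.Primes)
    (hℓ : ∀ i, ¬ ((ℓ i : ℕ) ∣ N * p)) (w : FreeAlgebra ℤ ι)
    (hw : FreeAlgebra.lift ℤ (fun i => Fermat.Agent.S49.heckeFam N (ℓ i)) w = 0)
    (a : ι → ResidueField A) (ha : FreeAlgebra.lift ℤ a w ≠ 0)
    (g : ↥(modularFunctionFieldFullC (ResidueField A) N)) (hg : g ≠ 0)
    (hdiv : ∀ Q : Place (ResidueField A) ↥(modularFunctionFieldFullC (ResidueField A) N),
      (p : ℤ) ∣ Q.ord g)
    (heig : ∀ i, T2fam (R := ResidueField A) ℓ i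
        (theta (g : LaurentSeries (ResidueField A)) / (g : LaurentSeries (ResidueField A))) =
      a i • (theta (g : LaurentSeries (ResidueField A)) / (g : LaurentSeries (ResidueField A)))) :
    ∃ h : ↥(modularFunctionFieldFullC (ResidueField A) N), h ^ p = g := by
  obtain ⟨hKA, hKB, hKC⟩ := hK8
  obtain ⟨h, hh, hgh⟩ := hKA g hg hdiv
  have hg' : (g : LaurentSeries (ResidueField A)) ≠ 0 := fun h0 => hg (Subtype.ext h0)
  set b : LaurentSeries (ResidueField A) :=
    theta (g : LaurentSeries (ResidueField A)) / (g : LaurentSeries (ResidueField A)) with hb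
  have hb1 : b = (h : LaurentSeries (ResidueField A)) * theta (jqModC (ResidueField A)) := by
    rw [hb, hgh, div_eq_iff hg']
    ring
  have h0 : liftT2 (R := ResidueField A) ℓ w b = 0 := by
    rw [hb1]
    exact hKC ι ℓ hℓ w hw h hh
  have h1 : liftT2 (R := ResidueField A) ℓ w b = (FreeAlgebra.lift ℤ a w) • b :=
    liftT2_eigen ℓ a b (fun i => (T2fam_apply ℓ i b).symm.trans (heig i)) w
  rw [h1] at h0
  have hb0 : b = 0 := by
    rcases smul_eq_zero.mp h0 with h2 | h2
    · exact absurd h2 ha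
    · exact h2
  apply hKB g
  rw [hb, div_eq_zero_iff] at hb0
  rcases hb0 with h3 | h3
  · exact h3
  · exact absurd h3 hg'

end Fermat.Agent.FF4.K8
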