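import Mathlib
import Fermat.Agent.FF.DiffExp
import Fermat.Agent.FF.DiffExpLocal
import Fermat.Agent.FF.DedekindApprox

/-!
# Programme II, K8 route (c), the LOCAL LEAF: `D_x` maps `O_v` into the inverse different

`A ⊆ B` Dedekind domains, `B` finite and torsion free over `A`, separable fraction fields, `v` a
height one prime of `B` over `p = v ∩ A` with trivial residue field extension.  No assumption that
`v` is the only prime over `p`, no assumption on the characteristic (wild ramification allowed).

* `le_map_sup_span` : if `t ∈ v \ v²` and `t ∉ w` for the other primes `w ∣ p`, then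
  `v ≤ p B + (t)`;
* `exists_mem_conductor_sub_one_mem` (Nakayama over `A[t]` at `v ∩ A[t]`): some `r ∈ A[t]` with
  `r ≡ 1 mod v` has `r B ⊆ A[t]`;
* `not_conductor_le_of_sup` : the conductor of `A[t]` is not contained in `v`;
* `exists_uniformizer_isolated` : such a `t` exists;
* `diffExp_eq_count_aeval_derivative_of_isolated` : `K(t) = L` and `d_v = ord_v (f'(t))`
  (general form of `FF.diffExp_eq_count_aeval_derivative_of_totallyRamified`);
* `valuation_derivation_le_exp_diffExp` : for a derivation `δ` of `L` with `δ A ⊆ A` and every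
  `v`-integral `y : L`, `v (δ y) ≥ - d_v`;
* `valuation_logDeriv_le_exp_diffExp` : `v (δ y / y) ≥ - d_v` whenever the order of `y` at `v`
  is divisible by the characteristic exponent `ℓ` (`ℓ = 0` in `L`).
-/

set_option autoImplicit false
set_option linter.deprecated false
set_option linter.unusedSectionVars false

namespace Fermat.Agent.FF4.K8

open Ideal Module UniqueFactorizationMonoid IsDedekindDomain Fermat.Agent.FF
open scoped nonZeroDivisors WithZero

attribute [local instance] FractionRing.liftAlgebra FractionRing.isScalarTower_liftAlgebra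
  Ideal.Quotient.field

section Sup

variable {A B : Type*} [CommRing A] [CommRing B] [Algebra A B] [IsDedekindDomain B]

/-- If `t ∈ v \ v²` lies in no other prime over `p = v ∩ A`, then `v ≤ p B + (t)`. -/
theorem le_map_sup_span (v : HeightOneSpectrum B) {t : B} (ht : t ∈ v.asIdeal)
    (ht2 : t ∉ v.asIdeal ^ 2)
    (hother : ∀ w : HeightOneSpectrum B, w ≠ v →
      Ideal.map (algebraMap A B) (v.asIdeal.under A) ≤ w.asIdeal → t ∉ w.asIdeal) :
    v.asIdeal ≤ Ideal.map (algebraMap A B) (v.asIdeal.under A) ⊔ Ideal.span {t} := by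
  set I : Ideal B := Ideal.map (algebraMap A B) (v.asIdeal.under A) ⊔ Ideal.span {t} with hI
  have htI : t ∈ I := (le_sup_right : Ideal.span {t} ≤ I) (Ideal.mem_span_singleton_self t)
  have hIv : I ≤ v.asIdeal :=
    sup_le (Ideal.map_le_iff_le_comap.mpr le_rfl) ((Ideal.span_singleton_le_iff_mem _).mpr ht)
  have ht0 : t ≠ 0 := fun h => ht2 (h ▸ Ideal.zero_mem _)
  have hI0 : I ≠ ⊥ := by
    intro h
    rw [h, Ideal.mem_bot] at htI
    exact ht0 htI
  obtain ⟨J, hJ⟩ := Ideal.dvd_iff_le.mpr hIv
  by_cases hJtop : J = ⊤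
  · rw [hJ, hJtop, Ideal.mul_top]
  · exfalso
    obtain ⟨M, hM, hJM⟩ := Ideal.exists_le_maximal J hJtop
    have hIM : I ≤ v.asIdeal * M := by
      rw [hJ]
      exact Ideal.mul_mono_right hJM
    by_cases hMv : M = v.asIdeal
    · apply ht2
      rw [pow_two]
      rw [hMv] at hIM
      exact hIM htI
    · have hIw : I ≤ M := hIM.trans Ideal.mul_le_right
      have hM0 : M ≠ ⊥ := fun h => hI0 (le_bot_iff.mp (h ▸ hIw))
      let w : HeightOneSpectrum B := ⟨M, hM.isPrime, hM0⟩
      have hw : w ≠ v := fun h => hMv (congrArg HeightOneSpectrum.asIdeal h)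
      exact hother w hw ((le_sup_left : _ ≤ I).trans hIw) (hIw htI)

end Sup

section Nakayama

variable {A B : Type*} [CommRing A] [CommRing B] [Algebra A B] [Module.Finite A B]

/-- **Nakayama over `A[t]`**: if `v = (v ∩ A) B + (t)`-ish (`v ≤ p B + (t)`, `t ∈ v`) and the
residue field extension at `v` is trivial, then some `r ∈ A[t]`, `r ≡ 1 mod v`, has
`r B ⊆ A[t]`. -/
theorem exists_mem_conductor_sub_one_mem (v : Ideal B) {t : B}
    (hres : Function.Surjective ((Ideal.Quotient.mk v).comp (algebraMap A B)))
    (hsup : v ≤ Ideal.map (algebraMap A B) (v.under A) ⊔ Ideal.span {t})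
    (ht : t ∈ v) :
    ∃ r : B, r ∈ Algebra.adjoin A {t} ∧ r - 1 ∈ v ∧ ∀ b : B, r * b ∈ Algebra.adjoin A {t} := by
  set R := Algebra.adjoin A {t} with hR
  have : Module.Finite R B := Module.Finite.of_restrictScalars_finite A R B
  set q : Ideal R := Ideal.comap (algebraMap R B) v with hq
  set N : Submodule R B := LinearMap.range (Algebra.linearMap R B) with hN
  have hfg : (⊤ : Submodule R B).FG := Module.Finite.fg_top
  -- `v ≤ q B`
  have hvq : v ≤ Ideal.map (algebraMap R B) q := by
    refine hsup.trans (sup_le ?_ ?_)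
    · have h1 : Ideal.map (algebraMap A R) (v.under A) ≤ q := by
        rw [Ideal.map_le_iff_le_comap, hq, Ideal.comap_comap]
        intro a ha
        rw [Ideal.mem_comap]
        have : (algebraMap R B).comp (algebraMap A R) = algebraMap A B := by
          ext a; rfl
        rw [this]
        exact ha
      have h2 : Ideal.map (algebraMap A B) (v.under A) =
          Ideal.map (algebraMap R B) (Ideal.map (algebraMap A R) (v.under A)) := by
        rw [Ideal.map_map]
        congr 1
      rw [h2]
      exact Ideal.map_mono h1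
    · rw [Ideal.span_singleton_le_iff_mem]
      have htq : (⟨t, Algebra.self_mem_adjoin_singleton A t⟩ : R) ∈ q := by
        rw [hq, Ideal.mem_comap]
        exact ht
      exact Ideal.mem_map_of_mem (algebraMap R B) htq
  have hle : (⊤ : Submodule R B) ≤ N ⊔ q • (⊤ : Submodule R B) := by
    intro b _
    obtain ⟨a, ha⟩ := hres (Ideal.Quotient.mk v b)
    have hz : b - algebraMap A B a ∈ v := by
      rw [← Ideal.Quotient.eq]
      exact ha.symm
    rw [Ideal.smul_top_eq_map]
    refine Submodule.mem_sup.mpr ⟨algebraMap A B a, ?_, b - algebraMap A B a, ?_, by ring⟩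
    · exact ⟨algebraMap A R a, rfl⟩
    · exact hvq hz
  obtain ⟨r, hr1, hr⟩ := Submodule.exists_sub_one_mem_and_smul_le_of_fg_of_le_sup
    (I := q) hfg le_rfl hle
  refine ⟨(r : B), r.2, ?_, fun b => ?_⟩
  · have := hr1
    rw [hq, Ideal.mem_comap] at this
    simpa using this
  · have h1 : r • b ∈ N :=
      hr (Submodule.smul_mem_pointwise_smul b r ⊤ Submodule.mem_top)
    obtain ⟨c, hc⟩ := h1
    have : (r : B) * b = (c : B) := hc.symm
    rw [this]
    exact c.2

end Nakayama

section Monogenic

variable {A B : Type*} [CommRing A] [CommRing B] [Algebra A B]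
  [IsDedekindDomain A] [IsDedekindDomain B] [IsTorsionFree A B] [Module.Finite A B]

/-- The conductor of `A[t]` is not contained in `v` as soon as `v ≤ p B + (t)`, `t ∈ v`
(trivial residue field extension). -/
theorem not_conductor_le_of_sup (v : HeightOneSpectrum B) {t : B} (ht : t ∈ v.asIdeal)
    (hres : Function.Surjective ((Ideal.Quotient.mk v.asIdeal).comp (algebraMap A B)))
    (hsup : v.asIdeal ≤ Ideal.map (algebraMap A B) (v.asIdeal.under A) ⊔ Ideal.span {t}) :
    ¬ conductor A t ≤ v.asIdeal := by
  obtain ⟨r, -, hr1, hrb⟩ := exists_mem_conductor_sub_one_mem v.asIdeal hres hsup ht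
  intro hle
  have hmem : r ∈ conductor A t := by
    rw [mem_conductor_iff]
    exact hrb
  have h1 : (1 : B) ∈ v.asIdeal := by
    have := v.asIdeal.sub_mem (hle hmem) hr1
    simpa using this
  exact v.isPrime.ne_top ((Ideal.eq_top_iff_one _).mpr h1)

/-- An isolated uniformiser at `v`: `t ∈ v \ v²` lying in no other prime over `p = v ∩ A`. -/
theorem exists_uniformizer_isolated (v : HeightOneSpectrum B) :
    ∃ t : B, t ∈ v.asIdeal ∧ t ∉ v.asIdeal ^ 2 ∧ ∀ w : HeightOneSpectrum B, w ≠ v →
      Ideal.map (algebraMap A B) (v.asIdeal.under A) ≤ w.asIdeal → t ∉ w.asIdeal := by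
  classical
  have hp : v.asIdeal.under A ≠ ⊥ := Ideal.under_ne_bot A v.ne_bot
  obtain ⟨π, hπ, hπ0⟩ := Submodule.exists_mem_ne_zero_of_ne_bot hp
  set d : B := algebraMap A B π with hd
  have hd0 : d ≠ 0 := by
    rw [hd, Ne, map_eq_zero_iff _ (FaithfulSMul.algebraMap_injective A B)]
    exact hπ0
  have hfin : {w : HeightOneSpectrum B | w.intValuation d < 1}.Finite :=
    Fermat.Agent.FF.Adele.finite_setOf_intValuation_lt_one hd0
  obtain ⟨u, hu⟩ := v.intValuation_exists_uniformizer
  have huv : u ∈ v.asIdeal := by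
    rw [← v.intValuation_lt_one_iff_mem, hu, ← WithZero.exp_zero, WithZero.exp_lt_exp]
    omega
  have hu2 : u ∉ v.asIdeal ^ 2 := by
    rw [← v.intValuation_le_pow_iff_mem, hu, WithZero.exp_le_exp]
    norm_num
  set s : Finset (HeightOneSpectrum B) := insert v hfin.toFinset with hs
  obtain ⟨y, hy⟩ := IsDedekindDomain.exists_forall_sub_mem_ideal (s := s)
    (fun w : HeightOneSpectrum B => w.asIdeal) (fun w => if w = v then 2 else 1)
    (fun w _ => w.prime)
    (fun w _ w' _ hww' h => hww' (HeightOneSpectrum.ext h))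
    (fun w => if (w : HeightOneSpectrum B) = v then u else 1)
  have hv := hy v (Finset.mem_insert_self _ _)
  simp only [if_true] at hv
  have hyv : y ∈ v.asIdeal := by
    have h1 : y - u ∈ v.asIdeal := Ideal.pow_le_self (by norm_num) hv
    have := v.asIdeal.add_mem h1 huv
    simpa using this
  have hy2 : y ∉ v.asIdeal ^ 2 := by
    intro h
    apply hu2
    have := (v.asIdeal ^ 2).sub_mem h hv
    simpa using this
  refine ⟨y, hyv, hy2, fun w hw hpw hyw => ?_⟩
  have hdw : d ∈ w.asIdeal := hpw (Ideal.mem_map_of_mem _ hπ)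
  have hws : w ∈ s := by
    rw [hs, Finset.mem_insert]
    right
    rw [Set.Finite.mem_toFinset, Set.mem_setOf_eq, w.intValuation_lt_one_iff_mem]
    exact hdw
  have h1 := hy w hws
  simp only [if_neg hw, pow_one] at h1
  have h2 : (1 : B) ∈ w.asIdeal := by
    have := w.asIdeal.sub_mem hyw h1
    simpa using this
  exact w.isPrime.ne_top ((Ideal.eq_top_iff_one _).mpr h2)

/-- If `r B ⊆ A[u]` for some nonzero `r ∈ A[u]`, then `u` is a primitive element of
`Frac B / Frac A`. -/
theorem adjoin_fractionRing_eq_top_of_mul_mem {u r : B} (hr0 : r ≠ 0)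
    (hrb : ∀ b : B, r * b ∈ Algebra.adjoin A {u}) :
    Algebra.adjoin (FractionRing A) {algebraMap B (FractionRing B) u} = ⊤ := by
  set K := FractionRing A
  set L := FractionRing B
  have hint : IsIntegral K (algebraMap B L u) := by
    have h1 : IsIntegral A u := Algebra.IsIntegral.isIntegral u
    have h2 : IsIntegral A (algebraMap B L u) := h1.map (IsScalarTower.toAlgHom A B L)
    exact h2.tower_top
  have hfield := IntermediateField.adjoin_simple_toSubalgebra_of_isAlgebraic hint.isAlgebraic
  have hrL : algebraMap B L r ≠ 0 := by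
    rwa [Ne, map_eq_zero_iff _ (IsFractionRing.injective B L)]
  -- the image of `A[u]` lies in `K[u]`
  have hR : ∀ c ∈ Algebra.adjoin A {u},
      algebraMap B L c ∈ IntermediateField.adjoin K {algebraMap B L u} := by
    intro c hc
    rw [← IntermediateField.mem_toSubalgebra, hfield]
    have h3 : algebraMap B L c ∈
        (Algebra.adjoin A {u}).map (IsScalarTower.toAlgHom A B L) := ⟨_, hc, rfl⟩
    rw [AlgHom.map_adjoin_singleton] at h3
    refine Algebra.adjoin_induction (p := fun y _ => y ∈ Algebra.adjoin K {algebraMap B L u})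
      (fun x hx => Algebra.subset_adjoin hx) (fun a => ?_)
      (fun x y _ _ hx hy => add_mem hx hy) (fun x y _ _ hx hy => mul_mem hx hy) h3
    rw [IsScalarTower.algebraMap_apply A K L]
    exact Subalgebra.algebraMap_mem _ _
  have hB : ∀ b : B, algebraMap B L b ∈ IntermediateField.adjoin K {algebraMap B L u} := by
    intro b
    have h1 := hR (r * b) (hrb b)
    have h2 := hR r (by simpa using hrb 1)
    have h5 : algebraMap B L b = algebraMap B L (r * b) / algebraMap B L r := by
      rw [map_mul, mul_div_cancel_left₀ _ hrL]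
    rw [h5]
    exact div_mem h1 h2
  rw [eq_top_iff]
  intro y _
  obtain ⟨b₁, b₂, -, rfl⟩ := IsFractionRing.div_surjective (A := B) y
  rw [← hfield, IntermediateField.mem_toSubalgebra]
  exact div_mem (hB b₁) (hB b₂)

variable [Algebra.IsSeparable (FractionRing A) (FractionRing B)]

open Polynomial in
/-- **Isolated uniformisers are locally monogenic** (no assumption that `v` is the only prime over
`p`): `t` generates `Frac B` over `Frac A` and `d_v = ord_v (f'(t))`, `f` the minimal polynomial
of `t` over `A`. -/
theorem diffExp_eq_count_aeval_derivative_of_isolated [DecidableEq (Ideal B)]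
    (v : HeightOneSpectrum B) {t : B}
    (ht : t ∈ v.asIdeal) (ht2 : t ∉ v.asIdeal ^ 2)
    (hother : ∀ w : HeightOneSpectrum B, w ≠ v →
      Ideal.map (algebraMap A B) (v.asIdeal.under A) ≤ w.asIdeal → t ∉ w.asIdeal)
    (hres : Function.Surjective ((Ideal.Quotient.mk v.asIdeal).comp (algebraMap A B))) :
    Algebra.adjoin (FractionRing A) {algebraMap B (FractionRing B) t} = ⊤ ∧
    diffExp A v =
      (normalizedFactors (Ideal.span {aeval t (derivative (minpoly A t))})).count v.asIdeal := by
  have hsup := le_map_sup_span (A := A) v ht ht2 hother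
  obtain ⟨r, -, hr1, hrb⟩ := exists_mem_conductor_sub_one_mem v.asIdeal hres hsup ht
  have hr0 : r ≠ 0 := by
    rintro rfl
    have h1 : (1 : B) ∈ v.asIdeal := by
      have := v.asIdeal.neg_mem hr1
      simpa using this
    exact v.isPrime.ne_top ((Ideal.eq_top_iff_one _).mpr h1)
  have hx := adjoin_fractionRing_eq_top_of_mul_mem hr0 hrb
  have hc := not_conductor_le_of_sup v ht hres hsup
  have : IsLocalization (Algebra.algebraMapSubmonoid B A⁰) (FractionRing B) :=
    IsIntegralClosure.isLocalization _ (FractionRing A) _ _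
  have : FiniteDimensional (FractionRing A) (FractionRing B) := .of_isLocalization A B A⁰
  exact ⟨hx, diffExp_eq_count_of_not_conductor_le A (FractionRing A) (FractionRing B) v t hx hc⟩

end Monogenic

section DerivationBound

variable (A Q : Type*) {B : Type*} (F : Type*) [CommRing A] [Field Q] [CommRing B] [Field F]
  [Algebra A Q] [Algebra B F] [Algebra A B] [Algebra Q F] [Algebra A F]
  [IsScalarTower A Q F] [IsScalarTower A B F]
  [IsFractionRing A Q] [FiniteDimensional Q F] [Algebra.IsSeparable Q F] [IsIntegralClosure B A F]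
  [IsFractionRing B F] [IsDedekindDomain A] [IsDedekindDomain B] [IsTorsionFree A B]
  [Module.Finite A B]

open Polynomial

omit [IsFractionRing A Q] [FiniteDimensional Q F] [Algebra.IsSeparable Q F]
  [IsIntegralClosure B A F] [IsFractionRing B F] [IsDedekindDomain A] [IsDedekindDomain B]
  [IsTorsionFree A B] [Module.Finite A B] [Algebra Q F] [IsScalarTower A Q F] [Algebra A Q] in
/-- **Chain rule with coefficients**: for a derivation `δ` of `F` preserving `A`,
`δ (P(t)) = c + P'(t) δ t` with `c ∈ B`. -/
theorem exists_derivation_aeval (δ : Derivation ℤ F F)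
    (hδA : ∀ a : A, ∃ a' : A, δ (algebraMap A F a) = algebraMap A F a') (t : B) (P : A[X]) :
    ∃ c : B, δ (algebraMap B F (aeval t P)) =
      algebraMap B F c + algebraMap B F (aeval t (derivative P)) * δ (algebraMap B F t) := by
  induction P using Polynomial.induction_on' with
  | add p q hp hq =>
    obtain ⟨c₁, h₁⟩ := hp
    obtain ⟨c₂, h₂⟩ := hq
    refine ⟨c₁ + c₂, ?_⟩
    rw [map_add, map_add, map_add, h₁, h₂, derivative_add, map_add, map_add, map_add]
    ring
  | monomial n a =>
    obtain ⟨a', ha'⟩ := hδA a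
    refine ⟨algebraMap A B a' * t ^ n, ?_⟩
    have e1 : algebraMap B F (aeval t (monomial n a)) =
        algebraMap A F a * algebraMap B F t ^ n := by
      rw [aeval_monomial, map_mul, map_pow, ← IsScalarTower.algebraMap_apply A B F]
    have e2 : algebraMap B F (aeval t (derivative (monomial n a))) =
        algebraMap A F a * (n : F) * algebraMap B F t ^ (n - 1) := by
      rw [derivative_monomial, aeval_monomial, map_mul, map_pow,
        ← IsScalarTower.algebraMap_apply A B F, map_mul, map_natCast]
    have e3 : algebraMap B F (algebraMap A B a' * t ^ n) =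
        algebraMap A F a' * algebraMap B F t ^ n := by
      rw [map_mul, map_pow, ← IsScalarTower.algebraMap_apply A B F]
    rw [e1, e2, e3, Derivation.leibniz, Derivation.leibniz_pow, ha']
    simp only [smul_eq_mul, nsmul_eq_mul]
    ring

include Q in
/-- **The local leaf of K8 (c1)**: a derivation `δ` of `F = Frac B` preserving `A` maps the
`v`-integral elements into `v ^ (- d_v)`, `d_v` the different exponent of `v` over `A`
(trivial residue field extension at `v`; any characteristic; `v` need not be the only prime over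
`v ∩ A`). -/
theorem valuation_derivation_le_exp_diffExp (δ : Derivation ℤ F F)
    (hδA : ∀ a : A, ∃ a' : A, δ (algebraMap A F a) = algebraMap A F a')
    (v : HeightOneSpectrum B)
    (hres : Function.Surjective ((Ideal.Quotient.mk v.asIdeal).comp (algebraMap A B)))
    {y : F} (hy : v.valuation F y ≤ 1) :
    v.valuation F (δ y) ≤ WithZero.exp (diffExp A v : ℤ) := by
  classical
  have hsep : Algebra.IsSeparable (FractionRing A) (FractionRing B) :=
    Fermat.Agent.X0.RR.isSeparable_fractionRing_of_isFractionRing A Q (L := F) (B := B)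
  obtain ⟨t, ht, ht2, hother⟩ := exists_uniformizer_isolated (A := A) v
  obtain ⟨-, hd⟩ := diffExp_eq_count_aeval_derivative_of_isolated v ht ht2 hother hres
  have hsup := le_map_sup_span (A := A) v ht ht2 hother
  obtain ⟨r, hrR, hr1, hrb⟩ := exists_mem_conductor_sub_one_mem v.asIdeal hres hsup ht
  set g : B := aeval t (derivative (minpoly A t)) with hg
  have hg0 : g ≠ 0 := aeval_derivative_minpoly_ne_zero A Q F t
  set M : ℤᵐ⁰ := WithZero.exp (diffExp A v : ℤ) with hM
  have hM1 : (1 : ℤᵐ⁰) ≤ M := by
    rw [hM, ← WithZero.exp_zero, WithZero.exp_le_exp]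
    exact Int.natCast_nonneg _
  have hgF : algebraMap B F g ≠ 0 := by
    rwa [Ne, map_eq_zero_iff _ (IsFractionRing.injective B F)]
  have hvg : v.valuation F (algebraMap B F g) = WithZero.exp (-(diffExp A v : ℤ)) := by
    have hspan : Ideal.span {g} ≠ 0 := by
      rw [Ne, Ideal.zero_eq_bot, Ideal.span_singleton_eq_bot]
      exact hg0
    rw [HeightOneSpectrum.valuation_of_algebraMap, v.intValuation_if_neg hg0,
      Ideal.count_associates_factors_eq hspan v.isPrime v.ne_bot, hd]
  -- the bound for `δ t`
  have hτ : v.valuation F (δ (algebraMap B F t)) ≤ M := by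
    obtain ⟨c, hc⟩ := exists_derivation_aeval A F δ hδA t (minpoly A t)
    rw [minpoly.aeval, map_zero, map_zero] at hc
    have h1 : δ (algebraMap B F t) = - algebraMap B F c / algebraMap B F g := by
      rw [eq_div_iff hgF]
      rw [← hg] at hc
      linear_combination -hc
    rw [h1, map_div₀, Valuation.map_neg, hvg, div_eq_mul_inv, ← WithZero.exp_neg, neg_neg]
    exact mul_le_of_le_one_left' (v.valuation_le_one c)
  -- the bound on `A[t]`
  have hadj : ∀ c ∈ Algebra.adjoin A {t}, v.valuation F (δ (algebraMap B F c)) ≤ M := by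
    intro c hc
    rw [Algebra.adjoin_singleton_eq_range_aeval] at hc
    obtain ⟨P, rfl⟩ := hc
    obtain ⟨c', hc'⟩ := exists_derivation_aeval A F δ hδA t P
    have hc'' : δ (algebraMap B F ((aeval t).toRingHom P)) = algebraMap B F c' +
        algebraMap B F (aeval t (derivative P)) * δ (algebraMap B F t) := hc'
    rw [hc'']
    refine Valuation.map_add_le _ ((v.valuation_le_one c').trans hM1) ?_
    rw [map_mul]
    calc v.valuation F (algebraMap B F (aeval t (derivative P))) *
          v.valuation F (δ (algebraMap B F t)) ≤ 1 * M :=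
          mul_le_mul' (v.valuation_le_one _) hτ
      _ = M := one_mul M
  -- `r` is a unit at `v`
  have hrv : r ∉ v.asIdeal := by
    intro hr
    have h1 : (1 : B) ∈ v.asIdeal := by
      have := v.asIdeal.sub_mem hr hr1
      simpa using this
    exact v.isPrime.ne_top ((Ideal.eq_top_iff_one _).mpr h1)
  have hvr : v.valuation F (algebraMap B F r) = 1 := by
    rw [HeightOneSpectrum.valuation_of_algebraMap]
    refine le_antisymm (v.intValuation_le_one r) ?_
    rw [← not_lt, v.intValuation_lt_one_iff_mem]
    exact hrv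
  -- the bound on `B`
  have hB : ∀ b : B, v.valuation F (δ (algebraMap B F b)) ≤ M := by
    intro b
    have h1 := hadj (r * b) (hrb b)
    have h2 := hadj r hrR
    rw [map_mul, Derivation.leibniz, smul_eq_mul, smul_eq_mul] at h1
    have h3 : algebraMap B F r * δ (algebraMap B F b) =
        (algebraMap B F r * δ (algebraMap B F b) + algebraMap B F b * δ (algebraMap B F r)) -
          algebraMap B F b * δ (algebraMap B F r) := by ring
    have h4 : v.valuation F (algebraMap B F r * δ (algebraMap B F b)) ≤ M := by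
      rw [h3]
      refine Valuation.map_sub_le _ h1 ?_
      rw [map_mul]
      calc v.valuation F (algebraMap B F b) * v.valuation F (δ (algebraMap B F r)) ≤ 1 * M :=
            mul_le_mul' (v.valuation_le_one b) h2
        _ = M := one_mul M
    rwa [map_mul, hvr, one_mul] at h4
  -- general `v`-integral `y`
  obtain ⟨n, d, hnd⟩ := v.exists_primeCompl_mul_eq_of_integer y hy
  have hvd : v.valuation F (algebraMap B F d) = 1 := by
    rw [HeightOneSpectrum.valuation_of_algebraMap]
    refine le_antisymm (v.intValuation_le_one _) ?_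
    rw [← not_lt, v.intValuation_lt_one_iff_mem]
    exact d.2
  have h1 := hB n
  rw [← hnd, Derivation.leibniz, smul_eq_mul, smul_eq_mul] at h1
  have h3 : algebraMap B F d * δ y =
      (y * δ (algebraMap B F d) + algebraMap B F d * δ y) - y * δ (algebraMap B F d) := by ring
  have h4 : v.valuation F (algebraMap B F d * δ y) ≤ M := by
    rw [h3]
    refine Valuation.map_sub_le _ h1 ?_
    rw [map_mul]
    calc v.valuation F y * v.valuation F (δ (algebraMap B F (d : B))) ≤ 1 * M :=
          mul_le_mul' hy (hB d)
      _ = M := one_mul M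
  rwa [map_mul, hvd, one_mul] at h4

end DerivationBound

section LogDeriv

variable {F : Type*} [Field F]

/-- `δ (x ^ (ℓ m)) = 0` when `ℓ = 0` in `F`. -/
theorem derivation_pow_char_mul (δ : Derivation ℤ F F) (ℓ : ℕ) (hℓ : (ℓ : F) = 0) (x : F)
    (m : ℕ) : δ (x ^ (ℓ * m)) = 0 := by
  rw [Derivation.leibniz_pow, nsmul_eq_mul, Nat.cast_mul, hℓ, zero_mul, zero_mul]

/-- `δ (x ^ (ℓ m)) = 0` for integer exponents, when `ℓ = 0` in `F`. -/
theorem derivation_zpow_char_mul (δ : Derivation ℤ F F) (ℓ : ℕ) (hℓ : (ℓ : F) = 0) (x : F)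
    (m : ℤ) : δ (x ^ ((ℓ : ℤ) * m)) = 0 := by
  obtain ⟨k, rfl | rfl⟩ := m.eq_nat_or_neg
  · rw [← Nat.cast_mul, zpow_natCast]
    exact derivation_pow_char_mul δ ℓ hℓ x k
  · rw [mul_neg, zpow_neg, ← Nat.cast_mul, zpow_natCast, Derivation.leibniz_inv,
      derivation_pow_char_mul δ ℓ hℓ x k, smul_zero]

end LogDeriv

section LogDerivBound

variable (A Q : Type*) {B : Type*} (F : Type*) [CommRing A] [Field Q] [CommRing B] [Field F]
  [Algebra A Q] [Algebra B F] [Algebra A B] [Algebra Q F] [Algebra A F]
  [IsScalarTower A Q F] [IsScalarTower A B F]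
  [IsFractionRing A Q] [FiniteDimensional Q F] [Algebra.IsSeparable Q F] [IsIntegralClosure B A F]
  [IsFractionRing B F] [IsDedekindDomain A] [IsDedekindDomain B] [IsTorsionFree A B]
  [Module.Finite A B]

include Q in
/-- Logarithmic derivative of a `v`-unit times a `δ`-constant. -/
theorem valuation_logDeriv_le_of_mul_const (δ : Derivation ℤ F F)
    (hδA : ∀ a : A, ∃ a' : A, δ (algebraMap A F a) = algebraMap A F a')
    (v : HeightOneSpectrum B)
    (hres : Function.Surjective ((Ideal.Quotient.mk v.asIdeal).comp (algebraMap A B)))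
    {y c : F} (hc0 : c ≠ 0) (hδc : δ c = 0) (hv : v.valuation F (y * c) = 1) :
    v.valuation F (δ y / y) ≤ WithZero.exp (diffExp A v : ℤ) := by
  have h1 := valuation_derivation_le_exp_diffExp A Q F δ hδA v hres (y := y * c) hv.le
  rw [Derivation.leibniz, hδc, smul_zero, zero_add, smul_eq_mul] at h1
  rcases eq_or_ne y 0 with rfl | hy0
  · rw [div_zero, map_zero]
    exact zero_le
  · have h2 : δ y / y = (c * δ y) / (y * c) := by
      field_simp
    rw [h2, map_div₀, hv, div_one]
    exact h1

include Q in
/-- **K8 (c1), regularity of `dlog` at `v`**: if `ℓ = 0` in `F` and the order of `y ≠ 0` at `v` is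
divisible by `ℓ`, then `v (δ y / y) ≥ - d_v`.  (For `ℓ = 0` this is the case of a `v`-unit.) -/
theorem valuation_logDeriv_le_exp_diffExp (δ : Derivation ℤ F F)
    (hδA : ∀ a : A, ∃ a' : A, δ (algebraMap A F a) = algebraMap A F a')
    (v : HeightOneSpectrum B)
    (hres : Function.Surjective ((Ideal.Quotient.mk v.asIdeal).comp (algebraMap A B)))
    (ℓ : ℕ) (hℓ : (ℓ : F) = 0) {y : F} {m : ℤ}
    (hyv : v.valuation F y = WithZero.exp (-((ℓ : ℤ) * m))) :
    v.valuation F (δ y / y) ≤ WithZero.exp (diffExp A v : ℤ) := by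
  obtain ⟨π, hπ⟩ := v.intValuation_exists_uniformizer
  set x : F := algebraMap B F π with hx
  have hvx : v.valuation F x = WithZero.exp (-1 : ℤ) := by
    rw [hx, HeightOneSpectrum.valuation_of_algebraMap, hπ]
  have hx0 : x ≠ 0 := by
    intro h
    rw [h, map_zero] at hvx
    exact WithZero.exp_ne_zero hvx.symm
  set c : F := x ^ ((ℓ : ℤ) * (-m)) with hc
  have hc0 : c ≠ 0 := zpow_ne_zero _ hx0
  have hδc : δ c = 0 := derivation_zpow_char_mul δ ℓ hℓ x (-m)
  have hvc : v.valuation F c = WithZero.exp ((ℓ : ℤ) * m) := by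
    rw [hc, map_zpow₀, hvx, ← WithZero.exp_zsmul]
    congr 1
    simp only [smul_eq_mul]
    ring
  have hv : v.valuation F (y * c) = 1 := by
    rw [map_mul, hyv, hvc, ← WithZero.exp_add, neg_add_cancel, WithZero.exp_zero]
  exact valuation_logDeriv_le_of_mul_const A Q F δ hδA v hres hc0 hδc hv

end LogDerivBound

end Fermat.Agent.FF4.K8
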