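import Mathlib
import Fermat.Agent.FF.RRCoreDiff
import Fermat.Agent.FF4.K8.DiffDeriv

/-!
# Programme II, K8 route (c1): `dlog` lands in `HOL` (coordinate context, any characteristic)

Coordinate context of `FF/RRCoreDiff.lean`: `K` algebraically closed of ANY characteristic, `F` a
finite SEPARABLE extension of `RatFunc K`, `x` the image of `X`, `δ` a `K`-derivation of `F` with
`δ x = 1`, `ℓ : ℕ` with `ℓ = 0` in `F` (the characteristic; `ℓ = 0` allowed).

* `derivation_algebraMap_polynomial` : `δ p(x) = p'(x)`;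
* `exists_derivation_algebraMap_ratFunc` : `δ` maps `RatFunc K` into itself, lowering the degree
  at infinity by one;
* `valuation_logDeriv_le_fin`, `valuation_logDeriv_le_inf` : the local bounds
  `v (δ y / y) ≥ - d_v` and `w (δ y / y) ≥ 2 e_w - d_w` when `ℓ ∣ ord y`;
* `logDeriv_mem_HOL` : **if `ℓ` divides the order of `y` at every prime of `Bf` and of `Binf`, then
  `δ y / y ∈ HOL K F`**, i.e. `dlog y = (δ y / y) dx` is a holomorphic differential.
-/

set_option autoImplicit false
set_option linter.unusedSectionVars false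

namespace Fermat.Agent.FF4.K8

open Polynomial Module IsDedekindDomain
open Fermat.Agent.X0.RR Fermat.Agent.FF Fermat.Agent.FF.RRDiff
open scoped nonZeroDivisors WithZero

section RatFuncDeriv

variable {K F : Type*} [Field K] [Field F] [Algebra K[X] F] [Algebra (RatFunc K) F]
  [IsScalarTower K[X] (RatFunc K) F] [Algebra K F] [IsScalarTower K (RatFunc K) F]

/-- `δ p(x) = p'(x)` for a `K`-derivation with `δ x = 1`. -/
theorem derivation_algebraMap_polynomial (δ : Derivation K F F)
    (hδX : δ (algebraMap (RatFunc K) F RatFunc.X) = 1) (p : K[X]) :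
    δ (algebraMap K[X] F p) = algebraMap K[X] F (derivative p) := by
  have hx : algebraMap K[X] F X = algebraMap (RatFunc K) F RatFunc.X := by
    rw [IsScalarTower.algebraMap_apply K[X] (RatFunc K) F, RatFunc.algebraMap_X]
  have h1 : ∀ q : K[X], algebraMap K[X] F q = aeval (algebraMap K[X] F X) q := by
    intro q
    rw [Polynomial.aeval_algebraMap_apply, Polynomial.aeval_X_left_apply]
  rw [h1 p, Derivation.map_aeval, hx, hδX, smul_eq_mul, mul_one, ← hx, ← h1]

/-- `δ` maps `RatFunc K` into itself and lowers the degree at infinity by one. -/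
theorem exists_derivation_algebraMap_ratFunc (δ : Derivation K F F)
    (hδX : δ (algebraMap (RatFunc K) F RatFunc.X) = 1) (f : RatFunc K) :
    ∃ g : RatFunc K, δ (algebraMap (RatFunc K) F f) = algebraMap (RatFunc K) F g ∧
      ∀ m : ℤ, IntDegLE f m → IntDegLE g (m - 1) := by
  set p := f.num with hp
  set q := f.denom with hq
  have hq0 : q ≠ 0 := f.denom_ne_zero
  set r : K[X] := derivative p * q - p * derivative q with hr
  have hf : algebraMap K[X] (RatFunc K) p / algebraMap K[X] (RatFunc K) q = f :=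
    RatFunc.num_div_denom f
  refine ⟨algebraMap K[X] (RatFunc K) r / algebraMap K[X] (RatFunc K) (q ^ 2), ?_, ?_⟩
  · have hqF : algebraMap K[X] F q ≠ 0 := by
      rw [IsScalarTower.algebraMap_apply K[X] (RatFunc K) F]
      have : algebraMap K[X] (RatFunc K) q ≠ 0 := by simpa using hq0
      simpa using this
    conv_lhs => rw [← hf]
    rw [map_div₀, ← IsScalarTower.algebraMap_apply K[X] (RatFunc K) F,
      ← IsScalarTower.algebraMap_apply K[X] (RatFunc K) F, Derivation.leibniz_div,
      derivation_algebraMap_polynomial δ hδX, derivation_algebraMap_polynomial δ hδX,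
      map_div₀, ← IsScalarTower.algebraMap_apply K[X] (RatFunc K) F,
      ← IsScalarTower.algebraMap_apply K[X] (RatFunc K) F, hr]
    simp only [smul_eq_mul, map_sub, map_mul, map_pow]
    field_simp
  · intro m hm
    refine intDegLE_div_of_natDegree (pow_ne_zero 2 hq0) ?_
    by_cases hr0 : r = 0
    · exact Or.inl hr0
    right
    have hw : wronskian q p = r := by
      rw [wronskian, hr]
      ring
    have hlt : r.natDegree < q.natDegree + p.natDegree := by
      rw [← hw]
      exact natDegree_wronskian_lt_add (by rwa [hw])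
    have hp0 : p ≠ 0 := by
      rintro h0
      apply hr0
      rw [hr, h0]
      simp
    have hf0 : f ≠ 0 := by
      intro h0
      apply hp0
      rw [hp, h0, RatFunc.num_zero]
    have hdeg : (p.natDegree : ℤ) - q.natDegree ≤ m := by
      rcases hm with h | h
      · exact absurd h hf0
      · rwa [RatFunc.intDegree] at h
    rw [natDegree_pow]
    push_cast
    have : (r.natDegree : ℤ) < q.natDegree + p.natDegree := by exact_mod_cast hlt
    omega

end RatFuncDeriv

section Coord

variable (K F : Type*) [Field K] [Field F] [Algebra K[X] F] [Algebra (RatFunc K) F]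
  [IsScalarTower K[X] (RatFunc K) F] [Algebra K F] [IsScalarTower K (RatFunc K) F]
  [IsAlgClosed K] [FiniteDimensional (RatFunc K) F] [Algebra.IsSeparable (RatFunc K) F]

/-- Trivial residue field extension at a prime of `Bf`. -/
theorem surjective_mk_comp_algebraMap_Bf (v : HeightOneSpectrum (Bf K F)) :
    Function.Surjective ((Ideal.Quotient.mk v.asIdeal).comp (algebraMap K[X] (Bf K F))) := by
  intro b
  have := v.isMaximal
  obtain ⟨c, hc⟩ := (Bf.bijective_algebraMap_quotient (K := K) (F := F) v.asIdeal).2 b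
  refine ⟨C c, ?_⟩
  rw [← hc, RingHom.comp_apply, IsScalarTower.algebraMap_apply K (Bf K F) (Bf K F ⧸ v.asIdeal),
    Ideal.Quotient.algebraMap_eq, IsScalarTower.algebraMap_apply K K[X] (Bf K F)]
  rfl

/-- Trivial residue field extension at a prime of `Binf`. -/
theorem surjective_mk_comp_algebraMap_Binf (w : HeightOneSpectrum (Binf K F)) :
    Function.Surjective ((Ideal.Quotient.mk w.asIdeal).comp (algebraMap (Rinf K) (Binf K F))) := by
  intro b
  have := w.isMaximal
  obtain ⟨c, hc⟩ := (Binf.bijective_algebraMap_quotient (K := K) (F := F) w.asIdeal).2 b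
  refine ⟨algebraMap K (Rinf K) c, ?_⟩
  rw [← hc, RingHom.comp_apply,
    IsScalarTower.algebraMap_apply K (Binf K F) (Binf K F ⧸ w.asIdeal),
    Ideal.Quotient.algebraMap_eq, IsScalarTower.algebraMap_apply K (Rinf K) (Binf K F)]

variable {K F}

/-- **Finite places**: `v (δ y / y) ≥ - d_v` when `ℓ ∣ ord_v y`. -/
theorem valuation_logDeriv_le_fin (δ : Derivation K F F)
    (hδX : δ (algebraMap (RatFunc K) F RatFunc.X) = 1) (ℓ : ℕ) (hℓ : (ℓ : F) = 0)
    (v : HeightOneSpectrum (Bf K F)) {y : F} {m : ℤ}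
    (hyv : v.valuation F y = WithZero.exp (-((ℓ : ℤ) * m))) :
    v.valuation F (δ y / y) ≤ WithZero.exp (diffExp K[X] v : ℤ) := by
  have hδA : ∀ a : K[X], ∃ a' : K[X],
      (δ.restrictScalars ℤ) (algebraMap K[X] F a) = algebraMap K[X] F a' :=
    fun a => ⟨derivative a, derivation_algebraMap_polynomial δ hδX a⟩
  exact valuation_logDeriv_le_exp_diffExp K[X] (RatFunc K) F (δ.restrictScalars ℤ) hδA v
    (surjective_mk_comp_algebraMap_Bf K F v) ℓ hℓ hyv

/-- The valuation of `1 / x` at a prime of `Binf` is `exp (- e_w)`. -/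
theorem valuation_Xinv (w : HeightOneSpectrum (Binf K F)) :
    w.valuation F (algebraMap (RatFunc K) F RatFunc.X)⁻¹ =
      WithZero.exp (-(eOver ↥(Rinf K) w : ℤ)) := by
  classical
  have hX : (algebraMap (RatFunc K) F RatFunc.X)⁻¹ =
      algebraMap (Binf K F) F (algebraMap (Rinf K) (Binf K F) (Xinv : ↥(Rinf K))) := by
    rw [← IsScalarTower.algebraMap_apply (Rinf K) (Binf K F) F,
      IsScalarTower.algebraMap_apply (Rinf K) (RatFunc K) F, ← map_inv₀]
    rfl
  have htB : algebraMap (Rinf K) (Binf K F) (Xinv : ↥(Rinf K)) ≠ 0 := by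
    rw [Ne, map_eq_zero_iff _ (FaithfulSMul.algebraMap_injective (Rinf K) (Binf K F))]
    exact Xinv_ne_zero
  have hspan : Ideal.span {algebraMap (Rinf K) (Binf K F) (Xinv : ↥(Rinf K))} ≠ 0 := by
    rw [Ne, Ideal.zero_eq_bot, Ideal.span_singleton_eq_bot]
    exact htB
  rw [hX, HeightOneSpectrum.valuation_of_algebraMap, w.intValuation_if_neg htB,
    Ideal.count_associates_factors_eq hspan w.isPrime w.ne_bot,
    eOver_eq_count_span (Xinv : ↥(Rinf K)) (hloc_Rinf_sep K) w]

/-- The derivation `δ_s = - x² δ` (`s = 1 / x`) preserves `Rinf K`. -/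
theorem exists_deltaS_algebraMap_Rinf (δ : Derivation K F F)
    (hδX : δ (algebraMap (RatFunc K) F RatFunc.X) = 1) (a : ↥(Rinf K)) :
    ∃ a' : ↥(Rinf K),
      -((algebraMap (RatFunc K) F RatFunc.X) ^ 2) * δ (algebraMap ↥(Rinf K) F a) =
        algebraMap ↥(Rinf K) F a' := by
  obtain ⟨c, hc⟩ := exists_sub_algebraMap_mem_maximalIdeal_Rinf a
  rw [mem_maximalIdeal_Rinf_iff] at hc
  obtain ⟨g, hg, hgdeg⟩ := exists_derivation_algebraMap_ratFunc δ hδX
    ((a - algebraMap K ↥(Rinf K) c : ↥(Rinf K)) : RatFunc K)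
  have hg2 := hgdeg (-1) hc
  have hmem : -(RatFunc.X ^ 2) * g ∈ Rinf K := by
    rw [mem_Rinf_iff]
    have h1 : IntDegLE ((RatFunc.X : RatFunc K) ^ (2 : ℤ)) 2 := intDegLE_X_zpow 2
    have h2 := (h1.mul hg2).neg
    have e : -((RatFunc.X : RatFunc K) ^ (2 : ℤ) * g) = -(RatFunc.X ^ 2) * g := by
      rw [zpow_ofNat]; ring
    rw [e] at h2
    exact h2.mono (by norm_num)
  refine ⟨⟨-(RatFunc.X ^ 2) * g, hmem⟩, ?_⟩
  have e1 : algebraMap ↥(Rinf K) F a =
      algebraMap (RatFunc K) F ((a - algebraMap K ↥(Rinf K) c : ↥(Rinf K)) : RatFunc K) +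
        algebraMap K F c := by
    rw [IsScalarTower.algebraMap_apply K (RatFunc K) F, ← map_add]
    show algebraMap (RatFunc K) F (a : RatFunc K) = _
    congr 1
    simp
  rw [e1, map_add, Derivation.map_algebraMap, add_zero, hg]
  show _ = algebraMap (RatFunc K) F (-(RatFunc.X ^ 2) * g)
  rw [map_mul, map_neg, map_pow]

/-- **Finite places, plain form**: `v (δ y) ≥ - d_v` for `v`-integral `y`. -/
theorem valuation_derivation_le_fin (δ : Derivation K F F)
    (hδX : δ (algebraMap (RatFunc K) F RatFunc.X) = 1)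
    (v : HeightOneSpectrum (Bf K F)) {y : F} (hy : v.valuation F y ≤ 1) :
    v.valuation F (δ y) ≤ WithZero.exp (diffExp K[X] v : ℤ) := by
  have hδA : ∀ a : K[X], ∃ a' : K[X],
      (δ.restrictScalars ℤ) (algebraMap K[X] F a) = algebraMap K[X] F a' :=
    fun a => ⟨derivative a, derivation_algebraMap_polynomial δ hδX a⟩
  exact valuation_derivation_le_exp_diffExp K[X] (RatFunc K) F (δ.restrictScalars ℤ) hδA v
    (surjective_mk_comp_algebraMap_Bf K F v) hy

/-- **Infinite places, plain form**: `w (δ y) ≥ 2 e_w - d_w` for `w`-integral `y`. -/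
theorem valuation_derivation_le_inf (δ : Derivation K F F)
    (hδX : δ (algebraMap (RatFunc K) F RatFunc.X) = 1)
    (w : HeightOneSpectrum (Binf K F)) {y : F} (hy : w.valuation F y ≤ 1) :
    w.valuation F (δ y) ≤
      WithZero.exp (-(2 * (eOver ↥(Rinf K) w : ℤ) - (diffExp ↥(Rinf K) w : ℤ))) := by
  set x : F := algebraMap (RatFunc K) F RatFunc.X with hx
  have hx0 : x ≠ 0 := by
    rw [hx, Ne, map_eq_zero_iff _ (algebraMap (RatFunc K) F).injective]
    exact RatFunc.X_ne_zero
  set δs : Derivation ℤ F F := (-(x ^ 2)) • δ.restrictScalars ℤ with hδs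
  have hδs_apply : ∀ z : F, δs z = -(x ^ 2) * δ z := fun z => rfl
  have hδA : ∀ a : ↥(Rinf K), ∃ a' : ↥(Rinf K),
      δs (algebraMap ↥(Rinf K) F a) = algebraMap ↥(Rinf K) F a' := fun a => by
    rw [hδs_apply]
    exact exists_deltaS_algebraMap_Rinf δ hδX a
  have h1 := valuation_derivation_le_exp_diffExp ↥(Rinf K) (RatFunc K) F δs hδA w
    (surjective_mk_comp_algebraMap_Binf K F w) hy
  rw [hδs_apply] at h1
  have h2 : δ y = -(x⁻¹ ^ 2) * (-(x ^ 2) * δ y) := by
    field_simp
  rw [h2, map_mul, Valuation.map_neg, map_pow, valuation_Xinv w]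
  calc WithZero.exp (-(eOver ↥(Rinf K) w : ℤ)) ^ 2 * w.valuation F (-(x ^ 2) * δ y)
      ≤ WithZero.exp (-(eOver ↥(Rinf K) w : ℤ)) ^ 2 *
          WithZero.exp (diffExp ↥(Rinf K) w : ℤ) := mul_le_mul' le_rfl h1
    _ = WithZero.exp (-(2 * (eOver ↥(Rinf K) w : ℤ) - (diffExp ↥(Rinf K) w : ℤ))) := by
        rw [← WithZero.exp_nsmul, ← WithZero.exp_add]
        congr 1
        simp only [nsmul_eq_mul]
        push_cast
        ring

/-- **Infinite places**: `w (δ y / y) ≥ 2 e_w - d_w` when `ℓ ∣ ord_w y`. -/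
theorem valuation_logDeriv_le_inf (δ : Derivation K F F)
    (hδX : δ (algebraMap (RatFunc K) F RatFunc.X) = 1) (ℓ : ℕ) (hℓ : (ℓ : F) = 0)
    (w : HeightOneSpectrum (Binf K F)) {y : F} {m : ℤ}
    (hyv : w.valuation F y = WithZero.exp (-((ℓ : ℤ) * m))) :
    w.valuation F (δ y / y) ≤
      WithZero.exp (-(2 * (eOver ↥(Rinf K) w : ℤ) - (diffExp ↥(Rinf K) w : ℤ))) := by
  set x : F := algebraMap (RatFunc K) F RatFunc.X with hx
  have hx0 : x ≠ 0 := by
    rw [hx, Ne, map_eq_zero_iff _ (algebraMap (RatFunc K) F).injective]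
    exact RatFunc.X_ne_zero
  -- the derivation `δ_s = - x² δ`, `s = 1 / x`
  set δs : Derivation ℤ F F := (-(x ^ 2)) • δ.restrictScalars ℤ with hδs
  have hδs_apply : ∀ z : F, δs z = -(x ^ 2) * δ z := fun z => rfl
  have hδA : ∀ a : ↥(Rinf K), ∃ a' : ↥(Rinf K),
      δs (algebraMap ↥(Rinf K) F a) = algebraMap ↥(Rinf K) F a' := fun a => by
    rw [hδs_apply]
    exact exists_deltaS_algebraMap_Rinf δ hδX a
  have h1 := valuation_logDeriv_le_exp_diffExp ↥(Rinf K) (RatFunc K) F δs hδA w
    (surjective_mk_comp_algebraMap_Binf K F w) ℓ hℓ hyv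
  rw [hδs_apply] at h1
  have h2 : δ y / y = -(x⁻¹ ^ 2) * (-(x ^ 2) * δ y / y) := by
    field_simp
  rw [h2, map_mul, Valuation.map_neg, map_pow, valuation_Xinv w]
  calc WithZero.exp (-(eOver ↥(Rinf K) w : ℤ)) ^ 2 * w.valuation F (-(x ^ 2) * δ y / y)
      ≤ WithZero.exp (-(eOver ↥(Rinf K) w : ℤ)) ^ 2 *
          WithZero.exp (diffExp ↥(Rinf K) w : ℤ) := mul_le_mul' le_rfl h1
    _ = WithZero.exp (-(2 * (eOver ↥(Rinf K) w : ℤ) - (diffExp ↥(Rinf K) w : ℤ))) := by
        rw [← WithZero.exp_nsmul, ← WithZero.exp_add]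
        congr 1
        simp only [nsmul_eq_mul]
        push_cast
        ring

/-- **K8 (c1): `dlog` lands in `HOL`.**  If the order of `y` at every prime of `Bf` and of `Binf`
is divisible by `ℓ` (`ℓ = 0` in `F`), then `δ y / y ∈ HOL K F`: the differential
`dlog y = (δ y / y) dx` is holomorphic. -/
theorem logDeriv_mem_HOL (δ : Derivation K F F)
    (hδX : δ (algebraMap (RatFunc K) F RatFunc.X) = 1) (ℓ : ℕ) (hℓ : (ℓ : F) = 0) {y : F}
    (hfin : ∀ v : HeightOneSpectrum (Bf K F), ∃ m : ℤ,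
      v.valuation F y = WithZero.exp (-((ℓ : ℤ) * m)))
    (hinf : ∀ w : HeightOneSpectrum (Binf K F), ∃ m : ℤ,
      w.valuation F y = WithZero.exp (-((ℓ : ℤ) * m))) :
    δ y / y ∈ HOL K F := by
  rw [mem_HOL_iff_diffExp]
  refine ⟨fun v => ?_, fun w => ?_⟩
  · obtain ⟨m, hm⟩ := hfin v
    exact valuation_logDeriv_le_fin δ hδX ℓ hℓ v hm
  · obtain ⟨m, hm⟩ := hinf w
    exact valuation_logDeriv_le_inf δ hδX ℓ hℓ w hm

end Coord

end Fermat.Agent.FF4.K8
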