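import Mathlib
import Fermat.Agent.FF.RHCoord
import Fermat.Agent.FF.CoordSepVar
import Fermat.Agent.X0.Alg.OrdDx
import Fermat.Agent.FF4.K8.DlogHOL

/-!
# Programme II, K8: the place form of `HOL` in a coordinate context (any characteristic)

Coordinate context of `FF/AdeleCoord.lean` / `FF/RHCoord.lean`: `K` algebraically closed of ANY
characteristic, `F` finite separable over `RatFunc K`, `x = coordX K F`, `δ` a `K`-derivation of
`F` with `δ x = 1`.  Plugs (P2) of the D3 block (SPEC-DIFF) and the place form of D1(d):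

* `valuation_derivation_le_place` : a uniform bound for `Q.adicValuation (δ u)`, `u ∈ O_Q`;
* `derivation_uniformizer_ne_zero` (`hstabt`) : `Q.ord t = 1 → δ t ≠ 0`, and
  `derivation_div_mem` : `δ u / δ t ∈ O_Q` for `u ∈ O_Q` (landed `Place.derivation_stable`);
* `mem_HOL_of_forall_ord_le` (`hbridge`) : if `ord_Q (δ t) ≤ ord_Q h` for every place `Q` and every
  uniformiser `t` at `Q` (i.e. `h dx` is regular at `Q`), then `h ∈ HOL K F`;
* `logDeriv_mem_HOL_of_place` : if `ℓ ∣ Q.ord g` for every place `Q` (`ℓ = 0` in `F`), then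
  `δ g / g ∈ HOL K F`.
-/

set_option autoImplicit false
set_option linter.unusedSectionVars false

namespace Fermat.Agent.FF4.K8

open AlgebraicCurve IsDedekindDomain WithZero Polynomial FunctionField
open Fermat.Agent.X0 Fermat.Agent.X0.RR Fermat.Agent.X0.RR7 Fermat.Agent.FF
  Fermat.Agent.FF.RRDiff Fermat.Agent.FF.Adele

variable {K F : Type*} [Field K] [Field F] [Algebra K F]
  [Algebra K[X] F] [Algebra (RatFunc K) F] [IsScalarTower K[X] (RatFunc K) F]
  [IsScalarTower K K[X] F] [IsScalarTower K (RatFunc K) F]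
  [FunctionField K F] [Algebra.IsSeparable (RatFunc K) F] [IsAlgClosed K]

omit [Algebra K F] [IsScalarTower K K[X] F] [IsScalarTower K (RatFunc K) F] [FunctionField K F]
  [Algebra.IsSeparable (RatFunc K) F] [IsAlgClosed K] in
/-- `coordX K F` is the image of `RatFunc.X`. -/
theorem coordX_eq_algebraMap_X :
    coordX K F = algebraMap (RatFunc K) F RatFunc.X := by
  rw [coordX, IsScalarTower.algebraMap_apply K[X] (RatFunc K) F, RatFunc.algebraMap_X]

/-- Every place is a prime of `Bf` or a prime of `Binf`. -/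
theorem exists_hos_Bf_or_Binf (Q : Place K F) :
    (∃ v : HeightOneSpectrum (Bf K F), Place.ofHeightOneSpectrum (K := K) (F := F) v = Q) ∨
    (∃ w : HeightOneSpectrum (Binf K F), Place.ofHeightOneSpectrum (K := K) (F := F) w = Q) := by
  by_cases h : IsFin Q
  · exact Or.inl ((fromModel_Bf_iff Q).mpr h)
  · exact Or.inr ((fromModel_Binf_iff Q).mpr h)

/-- **(BOUND)** for `δ` at every place, from the local leaf (L-DER). -/
theorem valuation_derivation_le_place (δ : Derivation K F F) (hδx : δ (coordX K F) = 1)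
    (Q : Place K F) :
    ∃ B : ℤᵐ⁰, B ≠ 0 ∧ ∀ u ∈ Q.toValuationSubring, Q.adicValuation (δ u) ≤ B := by
  have hδX : δ (algebraMap (RatFunc K) F RatFunc.X) = 1 := by
    rwa [← coordX_eq_algebraMap_X]
  rcases exists_hos_Bf_or_Binf Q with ⟨v, rfl⟩ | ⟨w, rfl⟩
  · refine ⟨exp (diffExp K[X] v : ℤ), exp_ne_zero, fun u hu => ?_⟩
    rw [Place.adicValuation_ofHeightOneSpectrum]
    refine valuation_derivation_le_fin δ hδX v ?_
    rw [← Place.adicValuation_ofHeightOneSpectrum (K := K)]
    exact AlgebraicCurve.Place.adicValuation_le_one_of_mem _ hu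
  · refine ⟨exp (-(2 * (eOver ↥(Rinf K) w : ℤ) - (diffExp ↥(Rinf K) w : ℤ))), exp_ne_zero,
      fun u hu => ?_⟩
    rw [Place.adicValuation_ofHeightOneSpectrum]
    refine valuation_derivation_le_inf δ hδX w ?_
    rw [← Place.adicValuation_ofHeightOneSpectrum (K := K)]
    exact AlgebraicCurve.Place.adicValuation_le_one_of_mem _ hu

/-- **(P2b) = `hstabt`**: `δ t ≠ 0` for every uniformiser `t` at every place, and `δ u / δ t` is
`Q`-integral for `Q`-integral `u`. -/
theorem derivation_uniformizer_stable (δ : Derivation K F F) (hδx : δ (coordX K F) = 1)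
    (Q : Place K F) {t : F} (ht : Q.ord t = 1) :
    δ t ≠ 0 ∧ ∀ u ∈ Q.toValuationSubring, δ u / δ t ∈ Q.toValuationSubring := by
  refine Place.derivation_stable Q δ ?_ (valuation_derivation_le_place δ hδx Q) ?_ ht
  · intro u hu
    exact Place.exists_adicValuation_sub_lt_one_S (isSepVarS_coordX K F) Q hu
  · exact ⟨coordX K F, by rw [hδx]; exact one_ne_zero⟩

theorem derivation_uniformizer_ne_zero (δ : Derivation K F F) (hδx : δ (coordX K F) = 1)
    (Q : Place K F) (t : F) (ht : Q.ord t = 1) : δ t ≠ 0 :=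
  (derivation_uniformizer_stable δ hδx Q ht).1

/-- **(P2a) = `hbridge`**: the place form of regularity implies membership in `HOL`. -/
theorem mem_HOL_of_forall_ord_le (δ : Derivation K F F) (hδx : δ (coordX K F) = 1)
    (h : F) (h0 : h ≠ 0)
    (H : ∀ (Q : Place K F) (t : F), Q.ord t = 1 → Q.ord (δ t) ≤ Q.ord h) :
    h ∈ HOL K F := by
  have hδX : δ (algebraMap (RatFunc K) F RatFunc.X) = 1 := by
    rwa [← coordX_eq_algebraMap_X]
  -- the common local step
  have key : ∀ (Q : Place K F) (B : ℤᵐ⁰),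
      (∀ u ∈ Q.toValuationSubring, Q.adicValuation (δ u) ≤ B) → Q.adicValuation h ≤ B := by
    intro Q B hB
    obtain ⟨t, ht⟩ := Place.exists_ord_eq_one Q
    have ht0 : t ≠ 0 := by
      rintro rfl
      simp [Place.ord_zero] at ht
    have htmem : t ∈ Q.toValuationSubring := by
      rw [Place.mem_iff_adicValuation_le_one, AlgebraicCurve.Place.adicValuation_eq_exp_neg_ord Q ht0, ht,
        ← exp_zero, exp_le_exp]
      norm_num
    have hδt0 := derivation_uniformizer_ne_zero δ hδx Q t ht
    have h1 := H Q t ht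
    calc Q.adicValuation h = exp (-Q.ord h) := AlgebraicCurve.Place.adicValuation_eq_exp_neg_ord Q h0
      _ ≤ exp (-Q.ord (δ t)) := by rw [exp_le_exp]; omega
      _ = Q.adicValuation (δ t) := (AlgebraicCurve.Place.adicValuation_eq_exp_neg_ord Q hδt0).symm
      _ ≤ B := hB t htmem
  rw [mem_HOL_iff_diffExp]
  refine ⟨fun v => ?_, fun w => ?_⟩
  · rw [← Place.adicValuation_ofHeightOneSpectrum (K := K)]
    refine key _ _ fun u hu => ?_
    rw [Place.adicValuation_ofHeightOneSpectrum]
    refine valuation_derivation_le_fin δ hδX v ?_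
    rw [← Place.adicValuation_ofHeightOneSpectrum (K := K)]
    exact AlgebraicCurve.Place.adicValuation_le_one_of_mem _ hu
  · rw [← Place.adicValuation_ofHeightOneSpectrum (K := K)]
    refine key _ _ fun u hu => ?_
    rw [Place.adicValuation_ofHeightOneSpectrum]
    refine valuation_derivation_le_inf δ hδX w ?_
    rw [← Place.adicValuation_ofHeightOneSpectrum (K := K)]
    exact AlgebraicCurve.Place.adicValuation_le_one_of_mem _ hu

/-- **D1(d), place form**: if `ℓ ∣ Q.ord g` at every place `Q` (`ℓ = 0` in `F`), then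
`δ g / g ∈ HOL K F`. -/
theorem logDeriv_mem_HOL_of_place (δ : Derivation K F F) (hδx : δ (coordX K F) = 1)
    (ℓ : ℕ) (hℓ : (ℓ : F) = 0) {g : F} (hg : g ≠ 0)
    (hdiv : ∀ Q : Place K F, (ℓ : ℤ) ∣ Q.ord g) :
    δ g / g ∈ HOL K F := by
  have hδX : δ (algebraMap (RatFunc K) F RatFunc.X) = 1 := by
    rwa [← coordX_eq_algebraMap_X]
  refine logDeriv_mem_HOL δ hδX ℓ hℓ (fun v => ?_) (fun w => ?_)
  · obtain ⟨m, hm⟩ := hdiv (Place.ofHeightOneSpectrum (K := K) (F := F) v)
    refine ⟨m, ?_⟩
    rw [← Place.adicValuation_ofHeightOneSpectrum (K := K),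
      AlgebraicCurve.Place.adicValuation_eq_exp_neg_ord _ hg, hm]
  · obtain ⟨m, hm⟩ := hdiv (Place.ofHeightOneSpectrum (K := K) (F := F) w)
    refine ⟨m, ?_⟩
    rw [← Place.adicValuation_ofHeightOneSpectrum (K := K),
      AlgebraicCurve.Place.adicValuation_eq_exp_neg_ord _ hg, hm]

end Fermat.Agent.FF4.K8
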