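import Mathlib
import Fermat.Agent.Red.ChartsLift
import Fermat.Agent.Red.Values
import Fermat.Agent.Red.NormalForm
import Fermat.Agent.Red.RRReduction
import Fermat.Agent.X0.RR7.HolDiffDef
import Fermat.Agent.X0.Alg.OrdDx

/-!
# PROGRAMME II, kernel K8, block D3 (helper22): reduction of holomorphic differentials (SPEC-DIFF)

Abstract form, over a `RedSetup S` (`F/K` of characteristic `0` with residue function field
`Ft/k` of any characteristic) carrying a pair of derivations `δ`, `δt` compatible with the reduction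
(`RedDer`: `δ O ⊆ O`, `res ∘ δ = δt ∘ res`; for the modular function fields `δ = Θ/Θx`, `Θ = q d/dq`
coefficientwise on `q`-expansions).

* `exists_chart_lift` : a function on the special fibre regular at `Q` lifts to a chart function
  regular on the whole residue disc `r⁻¹(Q)` (Red/ChartsLift + `r_surjective`);
* `ord_sub_evalAt_eq_one` : such a lift `u` of a uniformiser at `Q` is a uniformiser (up to the
  constant `u(P)`) at EVERY place `P` of the residue disc (conservation);
* **`ord_deriv_le_ord_resF`** (SPEC-DIFF, inequality form): for `h ∈ holDiff K x ∩ O` with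
  `res h ≠ 0`, every place `Q` of `Ft` and every uniformiser `ũ` at `Q`:
  `ord_Q (δt ũ) ≤ ord_Q (res h)`, i.e. `res h · dx̃` is regular at `Q`;
* **`resSpace_holDiff_eq`** : if a `k`-subspace `HOLt ⊆ Ft` of dimension `genusFF k Ft` contains
  every `h̃` with `ord_Q (δt ũ) ≤ ord_Q h̃` for all `(Q, ũ)`, and `dim holDiff K x = genusFF K F`,
  then `res (holDiff K x ∩ O) = HOLt`.
-/

set_option autoImplicit false
set_option linter.unusedSectionVars false

namespace Fermat.Agent.FF4.K8.SpecDiff

open AlgebraicCurve Module Fermat.Agent.Red Fermat.Agent.X0 Fermat.Agent.X0.RR7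

variable {K F k Ft : Type*} [Field K] [Field F] [Algebra K F] [Field k] [Field Ft]
  [Algebra k Ft] {A : ValuationSubring K} {π : A →+* k}

variable (S : RedSetup (F := F) (Ft := Ft) A π)

/-- A pair of derivations compatible with the reduction. -/
structure RedDer (δ : Derivation K F F) (δt : Derivation k Ft Ft) : Prop where
  mem : ∀ y ∈ S.O, δ y ∈ S.O
  resF_eq : ∀ y ∈ S.O, S.resF (δ y) = δt (S.resF y)

/-- **Pole-free lift.** A function `t` on the special fibre which is regular at `Q` is the residue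
of a chart function `u ∈ B_Z` with `Q ∉ r(Z)`: `u` is regular on the whole residue disc of `Q`. -/
theorem exists_chart_lift (hπ : Function.Surjective π) (hF : RiemannPkg K F)
    (hFt : RiemannPkg k Ft) (hg : genusFF k Ft = genusFF K F) (Q : Place k Ft) {t : Ft}
    (ht : t = 0 ∨ 0 ≤ Q.ord t) :
    ∃ (Z : Finset (Place K F)) (u : F), u ∈ S.chart (Z : Set (Place K F)) ∧ S.resF u = t ∧
      Q ∉ S.r '' (Z : Set (Place K F)) := by
  classical
  haveI := hF.principal
  haveI := hFt.infinite_places
  -- a place different from `Q`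
  obtain ⟨Q₀, hQ₀⟩ : ∃ Q₀ : Place k Ft, Q₀ ≠ Q := by
    obtain ⟨a, b, hab⟩ := exists_pair_ne (Place k Ft)
    by_cases ha : a = Q
    · exact ⟨b, fun hb => hab (ha.trans hb.symm)⟩
    · exact ⟨a, ha⟩
  set lift : Place k Ft → Place K F := Function.surjInv (NormalForm.r_surjective S) with hlift
  have hr : ∀ Q', S.r (lift Q') = Q' := Function.surjInv_eq (NormalForm.r_surjective S)
  by_cases ht0 : t = 0
  · refine ⟨{lift Q₀}, 0, Subring.zero_mem _, by rw [ht0, S.resF_zero], ?_⟩
    rintro ⟨P, hP, hPQ⟩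
    rw [Finset.coe_singleton, Set.mem_singleton_iff] at hP
    rw [hP, hr] at hPQ
    exact hQ₀ hPQ
  obtain ⟨Dt, hDt, -⟩ := hFt.principal.exists_divisor t ht0
  -- the poles of `t`, and `Q₀`
  set Zt : Finset (Place k Ft) := insert Q₀ (Dt.support.filter fun Q' => Dt Q' < 0) with hZt
  set Z : Finset (Place K F) := Zt.image lift with hZ
  have himage : S.r '' (Z : Set (Place K F)) = (Zt : Set (Place k Ft)) := by
    ext Q'
    constructor
    · rintro ⟨P, hP, rfl⟩
      rw [hZ, Finset.coe_image] at hP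
      obtain ⟨Q'', hQ'', rfl⟩ := hP
      rw [hr]
      exact hQ''
    · intro hQ'
      refine ⟨lift Q', ?_, hr Q'⟩
      rw [hZ, Finset.coe_image]
      exact ⟨Q', hQ', rfl⟩
  have hQZ : Q ∉ S.r '' (Z : Set (Place K F)) := by
    rw [himage, hZt, Finset.mem_coe, Finset.mem_insert, not_or]
    refine ⟨fun h => hQ₀ h.symm, fun h => ?_⟩
    have h1 := (Finset.mem_filter.mp h).2
    rw [hDt Q] at h1
    have := ht.resolve_left ht0
    omega
  have hreg : t ∈ regularRing (S.r '' (Z : Set (Place K F))) := by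
    rw [mem_regularRing_iff_ord]
    intro Q' hQ'
    right
    rw [himage, hZt, Finset.mem_coe, Finset.mem_insert, not_or] at hQ'
    by_contra hneg
    rw [not_le] at hneg
    apply hQ'.2
    rw [Finset.mem_filter, Finsupp.mem_support_iff, hDt Q']
    exact ⟨by omega, hneg⟩
  have hZne : Z.Nonempty := ⟨lift Q₀, Finset.mem_image_of_mem _ (Finset.mem_insert_self _ _)⟩
  obtain ⟨u, hu, hut⟩ := S.exists_lift_regular hπ hF hFt hg Z hZne hreg
  exact ⟨Z, u, hu, hut, hQZ⟩

/-- **Unramifiedness on the residue disc.** If `u ∈ B_Z` reduces to a uniformiser at `Q ∉ r(Z)`,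
then at every place `P` of the residue disc of `Q` the function `u - u(P)` is a uniformiser, and
`u(P)` lies in the maximal ideal of `A`. -/
theorem ord_sub_evalAt_eq_one (hF : RiemannPkg K F) {Z : Set (Place K F)} {u : F}
    (hu : u ∈ S.chart Z) {Q : Place k Ft} (hQ : Q ∉ S.r '' Z) (hord : Q.ord (S.resF u) = 1)
    {P : Place K F} (hP : S.r P = Q) :
    P.ord (u - algebraMap K F (evalAt P u)) = 1 := by
  classical
  have hPr : S.r P ∉ S.r '' Z := by rw [hP]; exact hQ
  have hPZ : P ∉ Z := fun h => hPr ⟨P, h, rfl⟩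
  obtain ⟨hcA, hev⟩ := S.evalAt_resF hF hu hPr
  set c : K := evalAt P u with hc
  -- the value of `res u` at `Q` is `0`
  have hval0 : IsValueAt (S.r P) (S.resF u) 0 := by
    rw [hP, isValueAt_zero_iff, adicValuation_lt_one_iff]
    right
    omega
  have hπc : π ⟨c, hcA⟩ = 0 := by
    rw [← hev]
    exact evalAt_eq_of_isValueAt hval0
  have hcchart : algebraMap K F c ∈ S.chart Z := S.algebraMap_mem_chart Z hcA
  have hy : u - algebraMap K F c ∈ S.chart Z := sub_mem hu hcchart
  have hyres : S.resF (u - algebraMap K F c) = S.resF u := by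
    rw [S.resF_sub hu.1 hcchart.1, S.resF_algebraMap hcA, hπc, map_zero, sub_zero]
  have hres0 : S.resF (u - algebraMap K F c) ≠ 0 := by
    rw [hyres]
    intro h0
    rw [h0, Place.ord_zero] at hord
    exact zero_ne_one hord
  have hy0 : u - algebraMap K F c ≠ 0 := S.ne_zero_of_resF_ne_zero hres0
  -- the order at `P` is positive
  have hreg := mem_toValuationSubring_of_mem_regularRing hu.2 hPZ
  have hpos : 0 < P.ord (u - algebraMap K F c) := by
    rcases ord_sub_evalAt_pos P (hF.deg_one P) hreg with h | h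
    · exact absurd (sub_eq_zero.mpr h) hy0
    · exact h
  -- conservation
  obtain ⟨D, hD, -⟩ := hF.principal.exists_divisor _ hy0
  have hcons := S.mapDomain_div_apply hres0 D hD Q
  rw [hyres, hord, mapDomain_apply_eq_sum] at hcons
  have hPsupp : P ∈ D.support := by
    rw [Finsupp.mem_support_iff, hD P]
    omega
  have hnonneg : ∀ a ∈ D.support, (0 : ℤ) ≤ (if S.r a = Q then D a else 0) := by
    intro a _
    split_ifs with ha
    · have haZ : a ∉ Z := fun haZ => hQ ⟨a, haZ, ha⟩
      rw [hD a]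
      exact ((mem_regularRing_iff_ord.1 hy.2) a haZ).resolve_left hy0
    · exact le_rfl
  have hle := Finset.single_le_sum hnonneg hPsupp
  rw [if_pos hP, hD P] at hle
  have : P.ord (u - algebraMap K F c) ≤ 1 := by
    calc P.ord (u - algebraMap K F c)
        ≤ ∑ a ∈ D.support, (if S.r a = Q then D a else 0) := hle
      _ = 1 := by convert hcons using 2
  omega

/-- the order of `δ t` at a place of characteristic `0`, for a uniformiser `t`, in terms of the
ramification of `x` (`δ x = 1`): the lower bound of `holDiff` is `ord (δ t)`. -/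
theorem ord_le_of_isHolAt [CharZero K] (hF : RiemannPkg K F) {δ : Derivation K F F} {x : F}
    (hδx : δ x = 1) {P : Place K F} {t : F} (ht : P.ord t = 1)
    (hstab : δ t ≠ 0 ∧ ∀ u ∈ P.toValuationSubring, δ u / δ t ∈ P.toValuationSubring)
    {h : F} (hh : IsHolAt x h P) : P.ord (δ t) ≤ P.ord h := by
  have hδt0 : δ t ≠ 0 := hstab.1
  have key : ∀ f : F, δ f = 1 → P.ord f ≠ 0 → P.ord (δ t) = 1 - P.ord f := by
    intro f hf1 hf0
    have h1 := Place.ord_derivation_div P δ ht hstab hf0
    rw [hf1, one_div, Place.ord_inv] at h1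
    omega
  by_cases hx : P.ord x < 0
  · rw [key x hδx (by omega)]
    exact hh.2 hx
  · -- `x` is regular at `P`
    rw [not_lt] at hx
    have hreg : x ∈ P.toValuationSubring := Place.mem_of_ord_nonneg P hx
    set a : K := evalAt P x with ha
    have hne : x ≠ algebraMap K F a := by
      intro heq
      rw [heq, Derivation.map_algebraMap] at hδx
      exact zero_ne_one hδx
    have hpos : 0 < P.ord (x - algebraMap K F a) :=
      (ord_sub_evalAt_pos P (hF.deg_one P) hreg).resolve_left hne
    have hδ1 : δ (x - algebraMap K F a) = 1 := by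
      rw [map_sub, Derivation.map_algebraMap, sub_zero, hδx]
    rw [key _ hδ1 (by omega)]
    exact hh.1 a hpos

/-- **SPEC-DIFF, inequality form.** For `h ∈ holDiff K x ∩ O` with nonzero residue, a place `Q` of
the special fibre and a uniformiser `ũ` at `Q`: `ord_Q (δt ũ) ≤ ord_Q (res h)`. -/
theorem ord_deriv_le_ord_resF [CharZero K] (hπ : Function.Surjective π) (hF : RiemannPkg K F)
    (hFt : RiemannPkg k Ft) (hg : genusFF k Ft = genusFF K F)
    {δ : Derivation K F F} {δt : Derivation k Ft Ft} (hRD : RedDer S δ δt) {x : F}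
    (hδx : δ x = 1)
    (hstab : ∀ (P : Place K F) (t : F), P.ord t = 1 →
      δ t ≠ 0 ∧ ∀ u ∈ P.toValuationSubring, δ u / δ t ∈ P.toValuationSubring)
    (hstabt : ∀ (Q : Place k Ft) (t : Ft), Q.ord t = 1 → δt t ≠ 0)
    {h : F} (hh : h ∈ holDiff K x) (hres : S.resF h ≠ 0)
    (Q : Place k Ft) {ut : Ft} (hut : Q.ord ut = 1) :
    Q.ord (δt ut) ≤ Q.ord (S.resF h) := by
  classical
  have hO : h ∈ S.O := S.mem_of_resF_ne_zero hres
  have h0 : h ≠ 0 := S.ne_zero_of_resF_ne_zero hres
  have hhol : ∀ P : Place K F, IsHolAt x h P := fun P => (hh.resolve_left h0) P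
  -- the pole-free lift of the uniformiser
  obtain ⟨Z, u, hu, hures, hQZ⟩ := exists_chart_lift S hπ hF hFt hg Q (t := ut)
    (Or.inr (by omega))
  have hordu : Q.ord (S.resF u) = 1 := by rw [hures]; exact hut
  -- `δ u` is a unit of `O`
  have hδuO : δ u ∈ S.O := hRD.mem u hu.1
  have hδures : S.resF (δ u) = δt ut := by rw [hRD.resF_eq u hu.1, hures]
  have hδt0 : δt ut ≠ 0 := hstabt Q ut hut
  have hδures0 : S.resF (δ u) ≠ 0 := by rw [hδures]; exact hδt0
  have hδu0 : δ u ≠ 0 := S.ne_zero_of_resF_ne_zero hδures0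
  have hinvO : (δ u)⁻¹ ∈ S.O := S.inv_mem_of_resF_ne_zero hδures0
  -- `φ = h / δ u`
  set φ : F := h * (δ u)⁻¹ with hφ
  have hφO : φ ∈ S.O := S.O.mul_mem _ _ hO hinvO
  have hφres : S.resF φ = S.resF h * (δt ut)⁻¹ := by
    rw [hφ, S.resF_mul hO hinvO, S.resF_inv hδures0, hδures]
  have hφres0 : S.resF φ ≠ 0 := by
    rw [hφres]
    exact mul_ne_zero hres (inv_ne_zero hδt0)
  have hφ0 : φ ≠ 0 := S.ne_zero_of_resF_ne_zero hφres0
  -- `φ` is regular on the residue disc of `Q`
  have hφreg : ∀ P : Place K F, S.r P = Q → 0 ≤ P.ord φ := by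
    intro P hP
    set c : K := evalAt P u with hc
    have ht1 : P.ord (u - algebraMap K F c) = 1 :=
      ord_sub_evalAt_eq_one S hF hu hQZ hordu hP
    have hδt : δ (u - algebraMap K F c) = δ u := by
      rw [map_sub, Derivation.map_algebraMap, sub_zero]
    have hst := hstab P _ ht1
    have hle := ord_le_of_isHolAt hF hδx ht1 hst (hhol P)
    rw [hδt] at hle
    rw [hφ, Place.ord_mul P h0 (inv_ne_zero hδu0), Place.ord_inv]
    omega
  -- conservation
  obtain ⟨D, hD, -⟩ := hF.principal.exists_divisor φ hφ0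
  have hcons := S.mapDomain_div_apply hφres0 D hD Q
  have hnonneg : 0 ≤ Finsupp.mapDomain S.r D Q := by
    rw [mapDomain_apply_eq_sum]
    refine Finset.sum_nonneg fun a _ => ?_
    split_ifs with ha
    · rw [hD a]; exact hφreg a ha
    · exact le_rfl
  rw [hcons, hφres, Place.ord_mul Q hres (inv_ne_zero hδt0), Place.ord_inv] at hnonneg
  omega

/-- **(D3) reduction of holomorphic differentials.** -/
theorem resSpace_holDiff_eq [CharZero K] (hπ : Function.Surjective π) (hF : RiemannPkg K F)
    (hFt : RiemannPkg k Ft) (hg : genusFF k Ft = genusFF K F)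
    {δ : Derivation K F F} {δt : Derivation k Ft Ft} (hRD : RedDer S δ δt) {x : F}
    (hδx : δ x = 1)
    (hstab : ∀ (P : Place K F) (t : F), P.ord t = 1 →
      δ t ≠ 0 ∧ ∀ u ∈ P.toValuationSubring, δ u / δ t ∈ P.toValuationSubring)
    (hstabt : ∀ (Q : Place k Ft) (t : Ft), Q.ord t = 1 → δt t ≠ 0)
    (HOLt : Submodule k Ft) [Module.Finite k HOLt]
    (hbridge : ∀ ht : Ft, ht ≠ 0 →
      (∀ (Q : Place k Ft) (ut : Ft), Q.ord ut = 1 → Q.ord (δt ut) ≤ Q.ord ht) → ht ∈ HOLt)
    (hdimt : finrank k HOLt = genusFF k Ft) [FiniteDimensional K (holDiff K x)]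
    (hdim : finrank K (holDiff K x) = genusFF K F) :
    S.resSpace hπ (holDiff K x) = HOLt := by
  have hle : S.resSpace hπ (holDiff K x) ≤ HOLt := by
    rintro _ ⟨z, hz, hzO, rfl⟩
    by_cases h0 : S.resF z = 0
    · rw [h0]; exact HOLt.zero_mem
    · exact hbridge _ h0 fun Q ut hut =>
        ord_deriv_le_ord_resF S hπ hF hFt hg hRD hδx hstab hstabt hz h0 Q hut
  apply Submodule.eq_of_le_of_finrank_eq hle
  rw [S.finrank_resSpace hπ, hdim, hdimt, hg]

end Fermat.Agent.FF4.K8.SpecDiff
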