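import Mathlib
import Fermat.Agent.FF4.K8.SpecDiff
import Fermat.Agent.X0.Alg.AffineModel
import Fermat.Agent.X0.Alg.KaehlerSepVar

/-!
# PROGRAMME II, kernel K8, block D3 (helper22): SPEC-DIFF, characteristic-zero side discharged

For a function field `F/K` (`K` algebraically closed of characteristic `0`) with a separating
variable `x`, the stability hypothesis `hstab` of `SpecDiff.ord_deriv_le_ord_resF` holds for every
nonzero derivation (landed `X0/Alg/OrdDx.Place.derivation_stable` + `X0/Alg/AffineModel`).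

* `stab_of_isSepVar` : `∀ P t, ord_P t = 1 → δ t ≠ 0 ∧ ∀ u ∈ O_P, δ u / δ t ∈ O_P`;
* `resSpace_holDiff_eq_of_isSepVar` : (D3) with only the characteristic-`p` hypotheses left.
-/

set_option autoImplicit false
set_option linter.unusedSectionVars false

namespace Fermat.Agent.FF4.K8.SpecDiff

open AlgebraicCurve Module Fermat.Agent.Red Fermat.Agent.X0 Fermat.Agent.X0.RR7

variable {K F k Ft : Type*} [Field K] [Field F] [Algebra K F] [Field k] [Field Ft]
  [Algebra k Ft] {A : ValuationSubring K} {π : A →+* k}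

/-- the stability of the local rings under `δ / δ t` at every place of a function field of
characteristic `0` with a separating variable -/
theorem stab_of_isSepVar [IsAlgClosed K] [CharZero K] {x : F} {n : ℕ} (hx : IsSepVar K x n)
    {δ : Derivation K F F} (hδ : ∃ y : F, δ y ≠ 0) (P : Place K F) (t : F) (ht : P.ord t = 1) :
    δ t ≠ 0 ∧ ∀ u ∈ P.toValuationSubring, δ u / δ t ∈ P.toValuationSubring :=
  Place.derivation_stable P δ (fun _ hu => Place.exists_adicValuation_sub_lt_one hx P hu)
    (Place.exists_adicValuation_derivation_le P δ (Place.exists_finset_adjoin hx P)) hδ ht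

variable (S : RedSetup (F := F) (Ft := Ft) A π)

/-- **(D3)**, the characteristic-zero side discharged. -/
theorem resSpace_holDiff_eq_of_isSepVar [IsAlgClosed K] [CharZero K]
    (hπ : Function.Surjective π) (hF : RiemannPkg K F)
    (hFt : RiemannPkg k Ft) (hg : genusFF k Ft = genusFF K F)
    {δ : Derivation K F F} {δt : Derivation k Ft Ft} (hRD : RedDer S δ δt) {x : F} {n : ℕ}
    (hx : IsSepVar K x n) (hδx : δ x = 1)
    (hstabt : ∀ (Q : Place k Ft) (t : Ft), Q.ord t = 1 → δt t ≠ 0)
    (HOLt : Submodule k Ft) [Module.Finite k HOLt]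
    (hbridge : ∀ ht : Ft, ht ≠ 0 →
      (∀ (Q : Place k Ft) (ut : Ft), Q.ord ut = 1 → Q.ord (δt ut) ≤ Q.ord ht) → ht ∈ HOLt)
    (hdimt : finrank k HOLt = genusFF k Ft) [FiniteDimensional K (holDiff K x)]
    (hdim : finrank K (holDiff K x) = genusFF K F) :
    S.resSpace hπ (holDiff K x) = HOLt :=
  resSpace_holDiff_eq S hπ hF hFt hg hRD hδx
    (stab_of_isSepVar hx ⟨x, by rw [hδx]; exact one_ne_zero⟩) hstabt HOLt hbridge hdimt hdim

end Fermat.Agent.FF4.K8.SpecDiff
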