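import Mathlib
import Fermat.Agent.FF4.K8.SpecDiffSepVar
import Fermat.Agent.FF2.G2I.Instance
import Fermat.Agent.Jac.DictC.GenusFF
import Fermat.Agent.Val.RiemannPkgModL

/-!
# PROGRAMME II, kernel K8, block D3 (helper22): the modular instance of SPEC-DIFF

`A` a valuation subring of `ℚ̄` over `ℓ ∤ N`, `k` its residue field, `F = Fb N`, `F̃ = F̃_N`,
`S = redS N hℓN A hA` (landed, FF2/G2I/Instance).  All landed inputs of
`SpecDiff.resSpace_holDiff_eq_of_isSepVar` are discharged here:

* `hF`, `hFt` : `Val.riemannPkg_bar`, `Val.riemannPkg_modL_residueField`;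
* `hg` : `Good.FinalH3.genusFF_modL_eq_bar`;
* `hx` : `X0.jBar_isSepVar`; `hdim` : `Jac.DictC.genusFF_eq_finrank_holDiff`;
* finiteness of `holDiff Kb (jBar N)` : `X0.RR7.finrank_holDiff_of_isSepVar`.

What remains as NAMED hypotheses (plugs (P1), (P2) of the K8 board): the pair of derivations with
`RedDer`, `hstabt`, and the characteristic-`ℓ` space `HOLt` with `hbridge` and `hdimt`.
-/

set_option autoImplicit false
set_option linter.unusedSectionVars false
set_option linter.style.haveILetI false

noncomputable section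

namespace Fermat.Agent.FF4.K8.SpecDiff

open AlgebraicCurve Module ModularCurve IsLocalRing Fermat.Agent.Red Fermat.Agent.X0
  Fermat.Agent.X0.RR7 Fermat.Agent.FF2.G2I

set_option synthInstance.maxHeartbeats 400000
set_option maxHeartbeats 1000000

variable (N : ℕ) [NeZero N] {ℓ : ℕ} [hℓ : Fact ℓ.Prime] (hℓN : ¬ ℓ ∣ N)
variable (A : ValuationSubring (AlgebraicClosure ℚ)) (hA : A.LiesOverPrime ℓ)

/-- the space of holomorphic differentials `h dj` of `F̄_N` is finite dimensional -/
theorem finiteDimensional_holDiff_jBar : FiniteDimensional Kb (holDiff Kb (jBar N)) := by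
  classical
  have hsep := jBar_isSepVar N
  have hA' : ∀ (v : Place Kb (Fb N)) (a : Kb),
      2 ≤ v.ord (jBar N - algebraMap Kb (Fb N) a) → a ∈ ({0, 1728} : Finset Kb) := by
    intro v a h2
    by_contra hmem
    simp only [Finset.mem_insert, Finset.mem_singleton, not_or] at hmem
    have := ord_jBar_sub_le_one N v a hmem.1 hmem.2
    omega
  exact (finrank_holDiff_of_isSepVar hsep ({0, 1728} : Finset Kb) hA').1

/-- `dim holDiff Kb (jBar N) = genusFF` -/
theorem finrank_holDiff_jBar :
    finrank Kb (holDiff Kb (jBar N)) = genusFF Kb (Fb N) :=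
  (Fermat.Agent.Jac.DictC.genusFF_eq_finrank_holDiff (jBar_isSepVar N)).symm

include hℓN hA in
/-- **(D3), modular instance**: `res (holDiff Kb (jBar N) ∩ O) = HOLt`, from the plugs (P1), (P2). -/
theorem resSpace_holDiff_jBar_eq
    {δ : Derivation Kb (Fb N) (Fb N)}
    {δt : Derivation (ResidueField A) (modularFunctionFieldFullC (ResidueField A) N)
      (modularFunctionFieldFullC (ResidueField A) N)}
    (hRD : RedDer (redS N hℓN A hA) δ δt) (hδj : δ (jBar N) = 1)
    (hstabt : ∀ (Q : Place (ResidueField A) (modularFunctionFieldFullC (ResidueField A) N))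
      (t : modularFunctionFieldFullC (ResidueField A) N), Q.ord t = 1 → δt t ≠ 0)
    (HOLt : Submodule (ResidueField A) (modularFunctionFieldFullC (ResidueField A) N))
    [Module.Finite (ResidueField A) HOLt]
    (hbridge : ∀ ht : modularFunctionFieldFullC (ResidueField A) N, ht ≠ 0 →
      (∀ (Q : Place (ResidueField A) (modularFunctionFieldFullC (ResidueField A) N))
        (ut : modularFunctionFieldFullC (ResidueField A) N),
        Q.ord ut = 1 → Q.ord (δt ut) ≤ Q.ord ht) → ht ∈ HOLt)
    (hdimt : finrank (ResidueField A) HOLt =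
      genusFF (ResidueField A) (modularFunctionFieldFullC (ResidueField A) N)) :
    (redS N hℓN A hA).resSpace IsLocalRing.residue_surjective (holDiff Kb (jBar N)) = HOLt := by
  haveI := finiteDimensional_holDiff_jBar N
  exact resSpace_holDiff_eq_of_isSepVar (redS N hℓN A hA) IsLocalRing.residue_surjective
    (Fermat.Agent.Val.riemannPkg_bar N) (Fermat.Agent.Val.riemannPkg_modL_residueField N hℓN A hA)
    (Fermat.Agent.Good.FinalH3.genusFF_modL_eq_bar N hℓN A hA) hRD (jBar_isSepVar N) hδj hstabt
    HOLt hbridge hdimt (finrank_holDiff_jBar N)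

include hℓN hA in
/-- consumer form: every element of `HOLt` is the residue of a Gauss-integral `h` with `h dj`
holomorphic on `X₀(N)` over `ℚ̄` -/
theorem exists_holDiff_resF_eq
    {δ : Derivation Kb (Fb N) (Fb N)}
    {δt : Derivation (ResidueField A) (modularFunctionFieldFullC (ResidueField A) N)
      (modularFunctionFieldFullC (ResidueField A) N)}
    (hRD : RedDer (redS N hℓN A hA) δ δt) (hδj : δ (jBar N) = 1)
    (hstabt : ∀ (Q : Place (ResidueField A) (modularFunctionFieldFullC (ResidueField A) N))
      (t : modularFunctionFieldFullC (ResidueField A) N), Q.ord t = 1 → δt t ≠ 0)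
    (HOLt : Submodule (ResidueField A) (modularFunctionFieldFullC (ResidueField A) N))
    [Module.Finite (ResidueField A) HOLt]
    (hbridge : ∀ ht : modularFunctionFieldFullC (ResidueField A) N, ht ≠ 0 →
      (∀ (Q : Place (ResidueField A) (modularFunctionFieldFullC (ResidueField A) N))
        (ut : modularFunctionFieldFullC (ResidueField A) N),
        Q.ord ut = 1 → Q.ord (δt ut) ≤ Q.ord ht) → ht ∈ HOLt)
    (hdimt : finrank (ResidueField A) HOLt =
      genusFF (ResidueField A) (modularFunctionFieldFullC (ResidueField A) N))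
    {ht : modularFunctionFieldFullC (ResidueField A) N} (hht : ht ∈ HOLt) :
    ∃ h : Fb N, h ∈ holDiff Kb (jBar N) ∧ h ∈ (redS N hℓN A hA).O ∧
      (redS N hℓN A hA).resF h = ht := by
  rw [← resSpace_holDiff_jBar_eq N hℓN A hA hRD hδj hstabt HOLt hbridge hdimt] at hht
  exact hht

end Fermat.Agent.FF4.K8.SpecDiff
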