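import Mathlib
import Fermat.Agent.FF4.K8.D3Modular
import Fermat.Agent.FF4.K8.BridgeHOL
import Fermat.Agent.Val.FinrankModL

/-!
# PROGRAMME II, kernel K8, block D3 (helper22): SPEC-DIFF at the modular instance, plugs (P2) closed

`A` a valuation subring of `ℚ̄` over `ℓ ∤ N`, `k` its residue field, `F = Fb N`, `F̃ = F̃_N`,
`S = redS N hℓN A hA`.  Plugs (P2a) `hbridge`, (P2b) `hstabt` (helper28, `FF4/K8/BridgeHOL`) and
`hdimt` (landed `RRDiff.genusFF_eq_finrank_HOL`) are discharged here in the coordinate context of
`j̃ = jFullC k N`.  The only remaining NAMED input is plug (P1): a pair of derivations `(δ, δt)` with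
`RedDer S δ δt`, `δ j = 1`, `δt j̃ = 1`.

* `exists_holDiff_resF_eq_of_forall_ord_le` : if `h̃ dj̃` is regular at every place of `F̃` (place
  form), then `h̃ = res h` with `h ∈ O` and `h dj` holomorphic on `X₀(N)` over `ℚ̄`;
* `exists_holDiff_resF_eq_logDeriv` (**K8q (a), derivation form**): if `ℓ ∣ ord_Q g̃` for every
  place `Q` of `F̃`, then `δt g̃ / g̃ = res h` with `h ∈ O` and `h dj` holomorphic.
-/

set_option autoImplicit false
set_option linter.unusedSectionVars false
set_option linter.style.haveILetI false

noncomputable section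

namespace Fermat.Agent.FF4.K8.SpecDiff

open AlgebraicCurve Module ModularCurve IsLocalRing Polynomial Fermat.Agent.Red Fermat.Agent.X0
  Fermat.Agent.X0.RR Fermat.Agent.X0.RR7 Fermat.Agent.FF2.G2I Fermat.Agent.FF
  Fermat.Agent.FF.RRDiff Fermat.Agent.Val

set_option synthInstance.maxHeartbeats 400000
set_option maxHeartbeats 1000000

variable (N : ℕ) [NeZero N] {ℓ : ℕ} [hℓ : Fact ℓ.Prime] (hℓN : ¬ ℓ ∣ N)
variable (A : ValuationSubring (AlgebraicClosure ℚ)) (hA : A.LiesOverPrime ℓ)

include hℓN hA in
/-- **(D3), final form**: a function `h̃` of `F̃_N` such that `h̃ dj̃` is regular at every place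
(place form: `ord_Q (δt t) ≤ ord_Q h̃` for every uniformiser `t` at `Q`) is the residue of a
Gauss-integral `h` with `h dj` holomorphic on `X₀(N)` over `ℚ̄`. -/
theorem exists_holDiff_resF_eq_of_forall_ord_le
    {δ : Derivation Kb (Fb N) (Fb N)}
    {δt : Derivation (ResidueField A) (modularFunctionFieldFullC (ResidueField A) N)
      (modularFunctionFieldFullC (ResidueField A) N)}
    (hRD : RedDer (redS N hℓN A hA) δ δt) (hδj : δ (jBar N) = 1)
    (hδtj : δt (jFullC (ResidueField A) N) = 1)
    {ht : modularFunctionFieldFullC (ResidueField A) N} (ht0 : ht ≠ 0)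
    (H : ∀ (Q : Place (ResidueField A) (modularFunctionFieldFullC (ResidueField A) N))
      (t : modularFunctionFieldFullC (ResidueField A) N), Q.ord t = 1 → Q.ord (δt t) ≤ Q.ord ht) :
    ∃ h : Fb N, h ∈ holDiff Kb (jBar N) ∧ h ∈ (redS N hℓN A hA).O ∧
      (redS N hℓN A hA).resF h = ht := by
  classical
  haveI : CharP (ResidueField A) ℓ := charP_residueField_of_liesOverPrime A hA
  haveI : IsAlgClosed (ResidueField A) := residueField_isAlgClosed A
  have hy := isSepVarS_jFullC_residueField N hℓN A hA
  letI := algPoly (ResidueField A) (jFullC (ResidueField A) N)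
  letI := algRat hy.transcendental
  haveI := isScalarTower_poly_rat hy.transcendental
  haveI := isScalarTower_base_poly (K := ResidueField A) (jFullC (ResidueField A) N)
  haveI := hy.finite
  haveI := hy.separable
  haveI := functionField_of_finite hy.transcendental
  haveI := isSeparable_ratFunc_of hy.transcendental
  haveI := isScalarTower_base_rat (K := ResidueField A)
    (F := modularFunctionFieldFullC (ResidueField A) N)
  have hcx : coordX (ResidueField A) (modularFunctionFieldFullC (ResidueField A) N) =
      jFullC (ResidueField A) N := coordX_eq _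
  have hδx : δt (coordX (ResidueField A) (modularFunctionFieldFullC (ResidueField A) N)) = 1 := by
    rw [hcx]; exact hδtj
  haveI : Module.Finite (ResidueField A)
      (HOL (ResidueField A) (modularFunctionFieldFullC (ResidueField A) N)) :=
    finite_HOL_sep (ResidueField A) (modularFunctionFieldFullC (ResidueField A) N)
  have hmem : ht ∈ HOL (ResidueField A) (modularFunctionFieldFullC (ResidueField A) N) :=
    Fermat.Agent.FF4.K8.mem_HOL_of_forall_ord_le δt hδx ht ht0 H
  exact exists_holDiff_resF_eq N hℓN A hA hRD hδj
    (fun Q t ht => Fermat.Agent.FF4.K8.derivation_uniformizer_ne_zero δt hδx Q t ht)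
    (HOL (ResidueField A) (modularFunctionFieldFullC (ResidueField A) N))
    (fun ht h0 H => Fermat.Agent.FF4.K8.mem_HOL_of_forall_ord_le δt hδx ht h0 H)
    (genusFF_eq_finrank_HOL (ResidueField A)
      (modularFunctionFieldFullC (ResidueField A) N)).symm hmem

include hℓN hA in
/-- **K8q (a), derivation form**: if `ℓ ∣ ord_Q g̃` at every place `Q` of `F̃_N`, then the
logarithmic derivative `δt g̃ / g̃` is the residue of a Gauss-integral `h` with `h dj` holomorphic
on `X₀(N)` over `ℚ̄`. -/
theorem exists_holDiff_resF_eq_logDeriv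
    {δ : Derivation Kb (Fb N) (Fb N)}
    {δt : Derivation (ResidueField A) (modularFunctionFieldFullC (ResidueField A) N)
      (modularFunctionFieldFullC (ResidueField A) N)}
    (hRD : RedDer (redS N hℓN A hA) δ δt) (hδj : δ (jBar N) = 1)
    (hδtj : δt (jFullC (ResidueField A) N) = 1)
    {g : modularFunctionFieldFullC (ResidueField A) N} (hg : g ≠ 0)
    (hdiv : ∀ Q : Place (ResidueField A) (modularFunctionFieldFullC (ResidueField A) N),
      (ℓ : ℤ) ∣ Q.ord g) :
    ∃ h : Fb N, h ∈ holDiff Kb (jBar N) ∧ h ∈ (redS N hℓN A hA).O ∧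
      (redS N hℓN A hA).resF h = δt g / g := by
  classical
  haveI : CharP (ResidueField A) ℓ := charP_residueField_of_liesOverPrime A hA
  haveI : IsAlgClosed (ResidueField A) := residueField_isAlgClosed A
  have hy := isSepVarS_jFullC_residueField N hℓN A hA
  letI := algPoly (ResidueField A) (jFullC (ResidueField A) N)
  letI := algRat hy.transcendental
  haveI := isScalarTower_poly_rat hy.transcendental
  haveI := isScalarTower_base_poly (K := ResidueField A) (jFullC (ResidueField A) N)
  haveI := hy.finite
  haveI := hy.separable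
  haveI := functionField_of_finite hy.transcendental
  haveI := isSeparable_ratFunc_of hy.transcendental
  haveI := isScalarTower_base_rat (K := ResidueField A)
    (F := modularFunctionFieldFullC (ResidueField A) N)
  have hcx : coordX (ResidueField A) (modularFunctionFieldFullC (ResidueField A) N) =
      jFullC (ResidueField A) N := coordX_eq _
  have hδx : δt (coordX (ResidueField A) (modularFunctionFieldFullC (ResidueField A) N)) = 1 := by
    rw [hcx]; exact hδtj
  haveI : Module.Finite (ResidueField A)
      (HOL (ResidueField A) (modularFunctionFieldFullC (ResidueField A) N)) :=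
    finite_HOL_sep (ResidueField A) (modularFunctionFieldFullC (ResidueField A) N)
  have hℓ0 : ((ℓ : ℕ) : modularFunctionFieldFullC (ResidueField A) N) = 0 := by
    have h0 : ((ℓ : ℕ) : ResidueField A) = 0 := CharP.cast_eq_zero _ _
    have := congrArg (algebraMap (ResidueField A)
      (modularFunctionFieldFullC (ResidueField A) N)) h0
    rwa [map_natCast, map_zero] at this
  have hmem : δt g / g ∈ HOL (ResidueField A) (modularFunctionFieldFullC (ResidueField A) N) :=
    Fermat.Agent.FF4.K8.logDeriv_mem_HOL_of_place δt hδx ℓ hℓ0 hg hdiv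
  exact exists_holDiff_resF_eq N hℓN A hA hRD hδj
    (fun Q t ht => Fermat.Agent.FF4.K8.derivation_uniformizer_ne_zero δt hδx Q t ht)
    (HOL (ResidueField A) (modularFunctionFieldFullC (ResidueField A) N))
    (fun ht h0 H => Fermat.Agent.FF4.K8.mem_HOL_of_forall_ord_le δt hδx ht h0 H)
    (genusFF_eq_finrank_HOL (ResidueField A)
      (modularFunctionFieldFullC (ResidueField A) N)).symm hmem

end Fermat.Agent.FF4.K8.SpecDiff
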