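import Mathlib
import Fermat.Agent.Val.GaussA
import Fermat.Agent.FF4.K8Series.Theta

/-!
# PROGRAMME II, kernel K8 (Serre's `dlog`), leaf RED-DER-1: `Θ = q d/dq` and the Gauss ring

`Θ` is helper15's `Fermat.Agent.FF4.K8Series.theta` (`(theta y).coeff n = (n : R) * y.coeff n`,
`theta_mul`, `coeffMap_theta`); this file adds its compatibility with the Gauss ring of `L((q))`
over a valuation subring `A ⊆ L` (`Val/GaussA`):

* `theta_aIota`, `theta_aRed`;
* `theta_mul_sq_of_mul_eq` : denominator-free quotient rule `x b = a ⇒ Θx · b² = Θa · b - a · Θb`;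
* `theta_mem_gaussRingA`, `gaussResA_theta` : `Θ` preserves the Gauss ring and commutes with the
  Gauss residue map;
* `theta_div_mem_gaussRingA`, `gaussResA_theta_div` : for `y, u` Gauss integral with
  `Θ (res u) ≠ 0`: `Θ y / Θ u` is Gauss integral with residue `Θ (res y) / Θ (res u)`
  (`= res (dy/du) = d(res y)/d(res u)` once `dy/du = Θy/Θu`).
-/

set_option autoImplicit false
set_option linter.unusedSectionVars false

open ModularCurve

noncomputable section

namespace Fermat.Agent.FF4.K8

open Fermat.Agent.Val Fermat.Agent.FF4.K8Series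

/-! ### `Θ` and the Gauss ring -/

section Gauss

variable {L : Type*} [Field L] (A : ValuationSubring L) {k : Type*} [Field k] (π : A →+* k)

theorem theta_aIota (a : LaurentSeries A) : theta (aIota A a) = aIota A (theta a) :=
  (coeffMap_theta A.subtype a).symm

theorem theta_aRed (a : LaurentSeries A) : theta (aRed π a) = aRed π (theta a) :=
  (coeffMap_theta π a).symm

/-- the quotient rule, denominator-free: `x b = a ⇒ Θx · b² = Θa · b - a · Θb`. -/
theorem theta_mul_sq_of_mul_eq {R : Type*} [CommRing R] {x a b : LaurentSeries R}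
    (h : x * b = a) : theta x * (b * b) = theta a * b - a * theta b := by
  have h1 := theta_mul x b
  rw [h] at h1
  rw [h1, ← h]
  ring

/-- `Θ` preserves the Gauss ring. -/
theorem theta_mem_gaussRingA {x : LaurentSeries L} (hx : x ∈ gaussRingA A π) :
    theta x ∈ gaussRingA A π := by
  obtain ⟨a, b, hb, hab⟩ := hx
  refine ⟨theta a * b - a * theta b, b * b, ?_, ?_⟩
  · rw [map_mul]
    exact mul_ne_zero hb hb
  · rw [map_mul, map_sub, map_mul, map_mul, ← theta_aIota, ← theta_aIota]
    exact theta_mul_sq_of_mul_eq hab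

/-- `Θ` commutes with the Gauss residue map. -/
theorem gaussResA_theta {x : LaurentSeries L} (hx : x ∈ gaussRingA A π) :
    gaussResA A π ⟨theta x, theta_mem_gaussRingA A π hx⟩ =
      theta (gaussResA A π ⟨x, hx⟩) := by
  obtain ⟨a, b, hb, hab⟩ := hx
  have hbb : aRed π (b * b) ≠ 0 := by
    rw [map_mul]
    exact mul_ne_zero hb hb
  rw [gaussResA_eq A π ⟨x, _⟩ hb hab,
    gaussResA_eq A π ⟨theta x, _⟩ (a := theta a * b - a * theta b) (b := b * b) hbb
      (by
        show theta x * aIota A (b * b) = _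
        rw [map_mul, map_sub, map_mul, map_mul, ← theta_aIota, ← theta_aIota]
        exact theta_mul_sq_of_mul_eq hab)]
  -- quotient rule in `k((q))`
  set α := aRed π a with hα
  set β := aRed π b with hβ
  have h2 : theta (α / β) * (β * β) = theta α * β - α * theta β :=
    theta_mul_sq_of_mul_eq (div_mul_cancel₀ α hb)
  rw [map_sub, map_mul, map_mul, map_mul, ← theta_aRed, ← theta_aRed, ← hα, ← hβ,
    div_eq_iff (mul_ne_zero hb hb), h2]

/-- For `y, u` Gauss integral with `Θ (res u) ≠ 0`, the quotient `Θ y / Θ u` is Gauss integral. -/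
theorem theta_div_mem_gaussRingA {y u : LaurentSeries L} (hy : y ∈ gaussRingA A π)
    (hu : u ∈ gaussRingA A π) (hu' : theta (gaussResA A π ⟨u, hu⟩) ≠ 0) :
    theta y / theta u ∈ gaussRingA A π := by
  obtain ⟨a, b, hb, hab⟩ := theta_mem_gaussRingA A π hy
  obtain ⟨c, d, hd, hcd⟩ := theta_mem_gaussRingA A π hu
  have hres := gaussResA_theta A π hu
  rw [gaussResA_eq A π ⟨theta u, _⟩ hd hcd] at hres
  have hc : aRed π c ≠ 0 := by
    intro h0
    apply hu'
    rw [← hres, h0, zero_div]
  have hc' : aIota A c ≠ 0 := aIota_ne_zero_of_aRed_ne_zero A π hc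
  have hd' : aIota A d ≠ 0 := aIota_ne_zero_of_aRed_ne_zero A π hd
  have hb' : aIota A b ≠ 0 := aIota_ne_zero_of_aRed_ne_zero A π hb
  have hΘu : theta u ≠ 0 := by
    intro h0
    rw [h0, zero_mul] at hcd
    exact hc' hcd.symm
  refine ⟨a * d, b * c, ?_, ?_⟩
  · rw [map_mul]
    exact mul_ne_zero hb hc
  · rw [map_mul, map_mul, ← hab, ← hcd]
    field_simp

/-- ... and its residue is `Θ (res y) / Θ (res u)`. -/
theorem gaussResA_theta_div {y u : LaurentSeries L} (hy : y ∈ gaussRingA A π)
    (hu : u ∈ gaussRingA A π) (hu' : theta (gaussResA A π ⟨u, hu⟩) ≠ 0) :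
    gaussResA A π ⟨theta y / theta u, theta_div_mem_gaussRingA A π hy hu hu'⟩ =
      theta (gaussResA A π ⟨y, hy⟩) / theta (gaussResA A π ⟨u, hu⟩) := by
  have hmem := theta_div_mem_gaussRingA A π hy hu hu'
  have hΘu : theta u ≠ 0 := by
    intro h0
    apply hu'
    rw [← gaussResA_theta A π hu]
    have : (⟨theta u, theta_mem_gaussRingA A π hu⟩ : gaussRingA A π) = 0 :=
      Subtype.ext h0
    rw [this, map_zero]
  have h1 : (⟨theta y / theta u, hmem⟩ : gaussRingA A π) *
      ⟨theta u, theta_mem_gaussRingA A π hu⟩ = ⟨theta y, theta_mem_gaussRingA A π hy⟩ :=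
    Subtype.ext (div_mul_cancel₀ _ hΘu)
  have h2 := congrArg (gaussResA A π) h1
  rw [map_mul, gaussResA_theta A π hu, gaussResA_theta A π hy] at h2
  rw [eq_div_iff hu', h2]

end Gauss

end Fermat.Agent.FF4.K8
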