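import Mathlib
import Fermat.Agent.FF2.G2I.Instance
import Fermat.Agent.Jac.RedHecke
import Fermat.Agent.FF.SepKaehler
import Fermat.Agent.Val.RiemannPkgBar
import Fermat.Agent.Val.RiemannPkgModL
import Fermat.Agent.FF4.K8.SpecDiff
import Fermat.Agent.FF4.K8.ThetaGauss
import Fermat.Agent.FF4.Dlog.Unique

/-!
# PROGRAMME II, kernel K8, block D3, plug (P1): the pair `(δ, δt) = (d/dj, d/dj̃)` at level `N`

`A` a valuation subring of `ℚ̄` over `ℓ ∤ N`, `k` its residue field, `S = redS N hℓN A hA` the landed
reduction setup of `F̄_N` onto `F̃_N = modularFunctionFieldFullC k N`.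

* `exists_derivation_bar` : `∃ δ : Derivation ℚ̄ F̄_N F̄_N, δ j = 1`;
* `exists_derivation_modL` : `∃ δt : Derivation k F̃_N F̃_N, δt j̃ = 1` (`k` alg. closed of char `ℓ ∤ N`);
* `coe_derivation_bar` / `coe_derivation_modL` : on `q`-expansions every such derivation is
  `y ↦ Θ y / Θ j` (`Θ = q d/dq`, helper15's `theta`; uniqueness = helper2's `chain_rule`);
* **`redDer_redS`** : `RedDer (redS N hℓN A hA) δ δt` for every such pair; `exists_redDer_redS`.
-/

set_option autoImplicit false
set_option linter.unusedSectionVars false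
set_option linter.style.haveILetI false

open ModularCurve AlgebraicCurve IntermediateField IsLocalRing

noncomputable section

namespace Fermat.Agent.FF4.K8

open Fermat.Agent.Val Fermat.Agent.X0 Fermat.Agent.FF Fermat.Agent.FF4.K8Series
  Fermat.Agent.FF4.Dlog Fermat.Agent.FF2.G2I Fermat.Agent.FF4.K8.SpecDiff

/-! ### `Θ j ≠ 0` -/

theorem theta_jqModC_ne_zero (R : Type*) [CommRing R] [Nontrivial R] :
    theta (jqModC R) ≠ 0 := by
  intro h
  have h1 := congrArg (fun s : LaurentSeries R => s.coeff (-1)) h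
  simp only [theta_coeff, HahnSeries.coeff_zero, coeff_jqModC_neg_one] at h1
  simp at h1

/-! ### derivations of subfields of `k((q))` are `Θ / Θ t` -/

/-- On an intermediate field `E` of `k((q))`, separable algebraic over `k(t)`, every `k`-derivation
`δ` with `δ t = 1` is `y ↦ Θ y / Θ t` on `q`-expansions. -/
theorem coe_derivation_eq_theta_div {k : Type*} [Field k]
    (E : IntermediateField k (LaurentSeries k)) (t : E) [Algebra.IsSeparable k⟮t⟯ E]
    (δ : Derivation k E E) (hδ : δ t = 1) (ht : theta ((t : E) : LaurentSeries k) ≠ 0) (y : E) :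
    ((δ y : E) : LaurentSeries k) =
      theta ((y : E) : LaurentSeries k) / theta ((t : E) : LaurentSeries k) := by
  have h := chain_rule (F := E) (E := LaurentSeries k) k t
    (E.val : E →+* LaurentSeries k) (δ : E →+ E)
    (fun a b => by
      show δ (a * b) = a * δ b + b * δ a
      rw [Derivation.leibniz, smul_eq_mul, smul_eq_mul])
    (fun c => δ.map_algebraMap c) hδ (thetaHom (R := k))
    (fun a b => by
      rw [thetaHom_apply, thetaHom_apply, thetaHom_apply, theta_mul]
      ring)
    (fun c => by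
      rw [thetaHom_apply]
      show theta ((algebraMap k E c : E) : LaurentSeries k) = 0
      have : ((algebraMap k E c : E) : LaurentSeries k) = HahnSeries.C c := by
        rw [← IntermediateField.algebraMap_apply, ← IsScalarTower.algebraMap_apply,
          LaurentSeries.algebraMap_apply]
      rw [this, theta_C]) y
  rw [eq_div_iff ht]
  exact h.symm

/-! ### characteristic zero: `F̄_N` -/

section Bar

variable (N : ℕ) [NeZero N]

theorem coeffEmb_jq_eq_jqModC (L : Type*) [Field L] [Algebra ℚ L] :
    coeffEmb L jq = jqModC L := by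
  rw [coeffEmb, ← jqModC_rat, coeffMap_jqModC]

theorem theta_jBar_ne_zero : theta ((jBar N : Fb N) : LaurentSeries Kb) ≠ 0 := by
  rw [coe_jBar, coeffEmb_jq_eq_jqModC]
  exact theta_jqModC_ne_zero Kb

/-- `d/dj` on `F̄_N`. -/
theorem exists_derivation_bar : ∃ δ : Derivation Kb (Fb N) (Fb N), δ (jBar N) = 1 := by
  obtain ⟨δ, hδ, -⟩ := exists_derivation_of_isSepVar (jBar_isSepVar N)
  exact ⟨δ, hδ⟩

/-- Every derivation of `F̄_N` with `δ j = 1` is `Θ / Θ j` on `q`-expansions. -/
theorem coe_derivation_bar (δ : Derivation Kb (Fb N) (Fb N)) (hδ : δ (jBar N) = 1) (y : Fb N) :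
    ((δ y : Fb N) : LaurentSeries Kb) =
      theta ((y : Fb N) : LaurentSeries Kb) / theta ((jBar N : Fb N) : LaurentSeries Kb) :=
  haveI : Algebra.IsSeparable Kb⟮jBar N⟯ (Fb N) := (jBar_isSepVarS N).separable
  coe_derivation_eq_theta_div (modularFunctionFieldBar N) (jBar N) δ hδ (theta_jBar_ne_zero N) y

end Bar

/-! ### characteristic `ℓ ∤ N`: `F̃_N` -/

section ModL

variable (N : ℕ) [NeZero N] {ℓ : ℕ} (k : Type*) [Field k] [IsAlgClosed k] [CharP k ℓ]

theorem theta_jFullC_ne_zero' :
    theta ((jFullC k N : modularFunctionFieldFullC k N) : LaurentSeries k) ≠ 0 :=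
  theta_jqModC_ne_zero k

/-- `d/dj̃` on `F̃_N`. -/
theorem exists_derivation_modL (hℓ : ℓ.Prime) (hℓN : ¬ ℓ ∣ N) :
    ∃ δt : Derivation k (modularFunctionFieldFullC k N) (modularFunctionFieldFullC k N),
      δt (jFullC k N) = 1 := by
  have hx := isSepVarS_jFullC N k hℓ hℓN
  haveI := hx.finite
  haveI := hx.separable
  obtain ⟨e, he⟩ := exists_kaehler_equiv_S (K := k) hx.transcendental
  refine ⟨(e : Ω[↥(modularFunctionFieldFullC k N)⁄k] →ₗ[↥(modularFunctionFieldFullC k N)]
    ↥(modularFunctionFieldFullC k N)).compDer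
      (KaehlerDifferential.D k ↥(modularFunctionFieldFullC k N)), ?_⟩
  exact he

/-- Every derivation of `F̃_N` with `δt j̃ = 1` is `Θ / Θ j̃` on `q`-expansions. -/
theorem coe_derivation_modL (hℓ : ℓ.Prime) (hℓN : ¬ ℓ ∣ N)
    (δt : Derivation k (modularFunctionFieldFullC k N) (modularFunctionFieldFullC k N))
    (hδt : δt (jFullC k N) = 1) (y : modularFunctionFieldFullC k N) :
    ((δt y : modularFunctionFieldFullC k N) : LaurentSeries k) =
      theta ((y : modularFunctionFieldFullC k N) : LaurentSeries k) /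
        theta ((jFullC k N : modularFunctionFieldFullC k N) : LaurentSeries k) :=
  haveI : Algebra.IsSeparable k⟮jFullC k N⟯ (modularFunctionFieldFullC k N) :=
    isSeparable_modularFunctionFieldFullC N k hℓ hℓN
  coe_derivation_eq_theta_div (modularFunctionFieldFullC k N) (jFullC k N) δt hδt
    (theta_jFullC_ne_zero' N k) y

end ModL

/-! ### the compatibility with the reduction -/

section RedDer

set_option synthInstance.maxHeartbeats 400000
set_option maxHeartbeats 1000000

variable (N : ℕ) [NeZero N] {ℓ : ℕ} [hℓ : Fact ℓ.Prime] (hℓN : ¬ ℓ ∣ N)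
variable (A : ValuationSubring (AlgebraicClosure ℚ)) (hA : A.LiesOverPrime ℓ)

theorem coe_jBar_mem_gaussRingA :
    ((jBar N : Fb N) : LaurentSeries Kb) ∈ gaussRingA A (residue A) := by
  rw [coe_jBar, ← coeffMap_subtype_jqModC A]
  exact aIota_mem_gaussRingA A (residue A) (jqModC A)

theorem gaussResA_jBar :
    gaussResA A (residue A) ⟨((jBar N : Fb N) : LaurentSeries Kb), coe_jBar_mem_gaussRingA N A⟩ =
      jqModC (ResidueField A) := by
  have h : (⟨((jBar N : Fb N) : LaurentSeries Kb), coe_jBar_mem_gaussRingA N A⟩ :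
      gaussRingA A (residue A)) =
      ⟨aIota A (jqModC A), aIota_mem_gaussRingA A (residue A) (jqModC A)⟩ :=
    Subtype.ext (by rw [coe_jBar]; exact (coeffMap_subtype_jqModC A).symm)
  rw [h, gaussResA_aIota]
  exact coeffMap_jqModC (residue A)

/-- **(P1)** the pair `(d/dj, d/dj̃)` is compatible with the reduction `redS` of `F̄_N` at `A`. -/
theorem redDer_redS (δ : Derivation Kb (Fb N) (Fb N)) (hδ : δ (jBar N) = 1)
    (δt : Derivation (ResidueField A) (modularFunctionFieldFullC (ResidueField A) N)
      (modularFunctionFieldFullC (ResidueField A) N))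
    (hδt : δt (jFullC (ResidueField A) N) = 1) :
    RedDer (redS N hℓN A hA) δ δt := by
  haveI : IsAlgClosed (ResidueField A) := residueField_isAlgClosed_algebraicClosure_rat A
  haveI : CharP (ResidueField A) ℓ := charP_residueField_of_liesOverPrime A hA
  have hG : Fermat.Agent.Jac.RedHecke.IsGauss (redS N hℓN A hA).toConstRed :=
    Fermat.Agent.Jac.RedHecke.isGauss_constRed (orthoDataQbar A N hA hℓN) (residue_hπ A)
      (residue_surjective' A)
  have hj := coe_jBar_mem_gaussRingA N A
  have hu' : theta (gaussResA A (residue A)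
      ⟨((jBar N : Fb N) : LaurentSeries Kb), hj⟩) ≠ 0 := by
    rw [gaussResA_jBar]
    exact theta_jqModC_ne_zero _
  have hmem : ∀ y ∈ (redS N hℓN A hA).O, δ y ∈ (redS N hℓN A hA).O := by
    intro y hy
    have hy' : ((y : Fb N) : LaurentSeries Kb) ∈ gaussRingA A (residue A) :=
      (hG.mem_iff y).mp hy
    refine (hG.mem_iff (δ y)).mpr ?_
    rw [coe_derivation_bar N δ hδ y]
    exact theta_div_mem_gaussRingA A (residue A) hy' hj hu'
  refine ⟨hmem, fun y hy => ?_⟩
  have hy' : ((y : Fb N) : LaurentSeries Kb) ∈ gaussRingA A (residue A) :=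
    (hG.mem_iff y).mp hy
  have hδy := hmem y hy
  have hδy' : ((δ y : Fb N) : LaurentSeries Kb) ∈ gaussRingA A (residue A) :=
    (hG.mem_iff (δ y)).mp hδy
  rw [(redS N hℓN A hA).resF_of_mem hδy, (redS N hℓN A hA).resF_of_mem hy]
  apply Subtype.ext
  rw [coe_derivation_modL N (ResidueField A) hℓ.out hℓN δt hδt]
  have h1 := hG.res_eq ⟨δ y, hδy⟩ hδy'
  have h2 := hG.res_eq ⟨y, hy⟩ hy'
  have h3 := gaussResA_theta_div A (residue A) hy' hj hu'
  rw [gaussResA_jBar] at h3
  have h4 : (⟨((δ y : Fb N) : LaurentSeries Kb), hδy'⟩ : gaussRingA A (residue A)) =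
      ⟨theta ((y : Fb N) : LaurentSeries Kb) / theta ((jBar N : Fb N) : LaurentSeries Kb),
        theta_div_mem_gaussRingA A (residue A) hy' hj hu'⟩ :=
    Subtype.ext (coe_derivation_bar N δ hδ y)
  have h5 : theta (gaussResA A (residue A) ⟨((y : Fb N) : LaurentSeries Kb), hy'⟩) /
      theta (jqModC (ResidueField A)) =
      theta (((redS N hℓN A hA).res ⟨y, hy⟩ : modularFunctionFieldFullC (ResidueField A) N) :
        LaurentSeries (ResidueField A)) /
        theta ((jFullC (ResidueField A) N : modularFunctionFieldFullC (ResidueField A) N) :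
          LaurentSeries (ResidueField A)) :=
    congrArg (fun s => theta s / theta (jqModC (ResidueField A))) h2.symm
  exact h1.trans ((congrArg (gaussResA A (residue A)) h4).trans (h3.trans h5))

/-- **(P1), packaged**: there is a pair `(δ, δt)` with `δ j = 1`, `δt j̃ = 1` compatible with the
reduction. -/
theorem exists_redDer_redS :
    ∃ (δ : Derivation Kb (Fb N) (Fb N))
      (δt : Derivation (ResidueField A) (modularFunctionFieldFullC (ResidueField A) N)
        (modularFunctionFieldFullC (ResidueField A) N)),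
      δ (jBar N) = 1 ∧ δt (jFullC (ResidueField A) N) = 1 ∧ RedDer (redS N hℓN A hA) δ δt := by
  haveI : IsAlgClosed (ResidueField A) := residueField_isAlgClosed_algebraicClosure_rat A
  haveI : CharP (ResidueField A) ℓ := charP_residueField_of_liesOverPrime A hA
  obtain ⟨δ, hδ⟩ := exists_derivation_bar N
  obtain ⟨δt, hδt⟩ := exists_derivation_modL N (ResidueField A) hℓ.out hℓN
  exact ⟨δ, δt, hδ, hδt, redDer_redS N hℓN A hA δ hδ δt hδt⟩

end RedDer

end Fermat.Agent.FF4.K8
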