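import Mathlib
import Fermat.Agent.FF4.K8.D3Final
import Fermat.Agent.FF4.K8.Contract
import Fermat.Agent.FF4.K8.RedDerModular

/-!
# PROGRAMME II, kernel K8: assembly of `K8qA` (helper22)

`K8qA N hpN A hA` (contract of helper19, `FF4/K8/Contract.lean`): if all the orders of `g̃ ∈ F̃_N^×`
are divisible by `p`, then `θ g̃ = g̃ · h̃ · θ j̃` with `h̃ ∈ R̃ = res (holDiff(F̄_N, j) ∩ O)`.

`k8qA_of_redDer` proves it from plug (P1): a pair of derivations `(δ, δt)` with
`RedDer (redS N hpN A hA) δ δt`, `δ j = 1`, `δt j̃ = 1` and the `q`-series form of `δt`,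
`θ ỹ = (δt ỹ) · θ j̃`.  Inputs: `SpecDiff.exists_holDiff_resF_eq_logDeriv` (D1d ∘ D3, `D3Final`).

**`k8qA : K8qA N hpN A hA`** is unconditional: plug (P1) is helper23's `FF4/K8/RedDerModular`
(`exists_redDer_redS`, `coe_derivation_modL`), plugs (P2) are helper28's `FF4/K8/BridgeHOL`.
-/

set_option autoImplicit false
set_option linter.unusedSectionVars false

noncomputable section

namespace Fermat.Agent.FF4.K8

open AlgebraicCurve ModularCurve IsLocalRing HahnSeries Fermat.Agent.X0 Fermat.Agent.X0.RR7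
  Fermat.Agent.FF2.G2I Fermat.Agent.Val
open Fermat.Agent.FF4.K8Series (theta)
open Fermat.Agent.FF4.K8.SpecDiff

variable (N : ℕ) [NeZero N] {p : ℕ} [hp : Fact p.Prime] (hpN : ¬ p ∣ N)
variable (A : ValuationSubring (AlgebraicClosure ℚ)) (hA : A.LiesOverPrime p)

include hA in
/-- **K8q (a)** from plug (P1). -/
theorem k8qA_of_redDer
    {δ : Derivation Kb (Fb N) (Fb N)}
    {δt : Derivation (ResidueField A) (modularFunctionFieldFullC (ResidueField A) N)
      (modularFunctionFieldFullC (ResidueField A) N)}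
    (hRD : RedDer (redS N hpN A hA) δ δt) (hδj : δ (jBar N) = 1)
    (hδtj : δt (jFullC (ResidueField A) N) = 1)
    (hθ : ∀ y : modularFunctionFieldFullC (ResidueField A) N,
      theta (y : LaurentSeries (ResidueField A)) =
        (δt y : LaurentSeries (ResidueField A)) * theta (jqModC (ResidueField A))) :
    K8qA N hpN A hA := by
  intro g hg hdiv
  obtain ⟨h, hh, hhO, hres⟩ :=
    exists_holDiff_resF_eq_logDeriv N hpN A hA hRD hδj hδtj hg hdiv
  refine ⟨δt g / g, ⟨h, hh, hhO, hres⟩, ?_⟩
  have hmul : (δt g : LaurentSeries (ResidueField A)) =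
      (g : LaurentSeries (ResidueField A)) *
        ((δt g / g : modularFunctionFieldFullC (ResidueField A) N) :
          LaurentSeries (ResidueField A)) := by
    have : δt g = g * (δt g / g) := by field_simp
    exact congrArg (fun z : modularFunctionFieldFullC (ResidueField A) N =>
      (z : LaurentSeries (ResidueField A))) this
  rw [hθ g, hmul]

include hA in
/-- **K8q (a)**, unconditionally: if `p ∣ ord_Q g̃` at every place `Q` of `F̃_N`, then
`θ g̃ = g̃ · h̃ · θ j̃` for some `h̃ ∈ R̃ = res (holDiff(F̄_N, j) ∩ O)`. -/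
theorem k8qA : K8qA N hpN A hA := by
  haveI : IsAlgClosed (ResidueField A) := residueField_isAlgClosed_algebraicClosure_rat A
  haveI : CharP (ResidueField A) p := charP_residueField_of_liesOverPrime A hA
  obtain ⟨δ, δt, hδ, hδt, hRD⟩ := exists_redDer_redS N hpN A hA
  refine k8qA_of_redDer N hpN A hA hRD hδ hδt fun y => ?_
  rw [coe_derivation_modL N (ResidueField A) hp.out hpN δt hδt y]
  exact (div_mul_cancel₀ _ (theta_jFullC_ne_zero' N (ResidueField A))).symm

end Fermat.Agent.FF4.K8
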