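import Fermat.Agent.FF4.K8.Contract
import Fermat.Agent.FF4.Dlog.ThetaKer
import Fermat.Agent.Val.ResidueFieldA

/-!
# PROGRAMME II, kernel K8: `K8qB` (helper2)

`k8qB : K8qB N A` for `p ∤ N`, `A | p`: on the reduced modular function field
`F̃ = modularFunctionFieldFullC k N ⊂ k((q))` (`k = ResidueField A`), `θ g̃ = 0 ⇒ g̃ ∈ F̃ᵖ`.

It is `Dlog.thetaFull_eq_zero_iff` (kernel of a derivation on a function field separable over
`k(j̃)`, `k` perfect of characteristic `p`; landed separability `Val.isSepVarS_jFullC`) fed with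
`Θ := K8Series.thetaHom`.
-/

set_option autoImplicit false

namespace Fermat.Agent.FF4.K8

open ModularCurve IsLocalRing
open Fermat.Agent.FF4.K8Series (theta thetaHom theta_mul theta_coeff)

variable (N : ℕ) [NeZero N] {p : ℕ} [hp : Fact p.Prime] (hpN : ¬ p ∣ N)
variable (A : ValuationSubring (AlgebraicClosure ℚ)) (hA : A.LiesOverPrime p)

include hpN hA in
/-- **K8q (b)**, the iff form: `θ g̃ = 0 ↔ g̃ ∈ F̃ᵖ`. -/
theorem theta_eq_zero_iff_exists_pow
    (g : ↥(modularFunctionFieldFullC (ResidueField A) N)) :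
    theta (g : LaurentSeries (ResidueField A)) = 0 ↔
      ∃ h : ↥(modularFunctionFieldFullC (ResidueField A) N), h ^ p = g := by
  have : CharP (ResidueField A) p := Fermat.Agent.Val.charP_residueField_of_liesOverPrime A hA
  have : IsAlgClosed (ResidueField A) := Fermat.Agent.Val.residueField_isAlgClosed A
  have h := Fermat.Agent.FF4.Dlog.thetaFull_eq_zero_iff N (ResidueField A) hpN
    (thetaHom (R := ResidueField A))
    (fun a b => by
      simp only [Fermat.Agent.FF4.K8Series.thetaHom_apply]
      rw [theta_mul, mul_comm (theta a) b, add_comm])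
    (fun y n => theta_coeff y n) g
  simpa only [Fermat.Agent.FF4.K8Series.thetaHom_apply] using h

include hpN hA in
/-- **K8q (b)** [Q1]. -/
theorem k8qB : K8qB (p := p) N A :=
  fun g hg => (theta_eq_zero_iff_exists_pow N hpN A hA g).mp hg

include hpN hA in
/-- `dlog` form: `b := θ g̃ / g̃ = 0 ↔ g̃ ∈ (F̃ˣ)ᵖ`. -/
theorem theta_div_eq_zero_iff_exists_pow
    {g : ↥(modularFunctionFieldFullC (ResidueField A) N)} (hg : g ≠ 0) :
    theta (g : LaurentSeries (ResidueField A)) / (g : LaurentSeries (ResidueField A)) = 0 ↔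
      ∃ h : ↥(modularFunctionFieldFullC (ResidueField A) N), h ^ p = g := by
  have hg' : (g : LaurentSeries (ResidueField A)) ≠ 0 := fun h => hg (by exact_mod_cast h)
  rw [div_eq_zero_iff, or_iff_left hg']
  exact theta_eq_zero_iff_exists_pow N hpN A hA g

end Fermat.Agent.FF4.K8
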