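import Mathlib
import Fermat.Agent.X0.LaurentQ
import Fermat.Agent.X0.JLocalDeriv
import Fermat.Agent.Eis.QExpDeriv
import Fermat.Agent.BR3.IgSq.Laurent

/-!
# PROGRAMME II, kernel K8, leaf Q4 (part 1): `qexpL (D F) = θ (qexpL F)`

For `F : ℍ → ℂ` holomorphic, `1`-periodic and meromorphic at `i∞` (`IsMerCusp F`), the normalised
derivative `D F = (2πi)⁻¹ F'` is again meromorphic at `i∞` and its Laurent `q`-expansion is
`θ = q d/dq` (`BR3.IgSq.thetaL`) applied to the Laurent `q`-expansion of `F`.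
-/

set_option autoImplicit false

noncomputable section

namespace Fermat.Agent.FF4.K8

open UpperHalfPlane Function Filter Topology HahnSeries Derivative
open Fermat.Agent.S23 Fermat.Agent.X0 Fermat.Agent.X0.JLocal
open Fermat.Agent.BR3.IgSq (thetaL coeff_thetaL)
open scoped Manifold Real

local notation "𝕢" => Function.Periodic.qParam

/-- `D q = q`. -/
theorem D_qFun : D qFun = qFun := by
  funext z
  have hopen : IsOpen {w : ℂ | 0 < w.im} := isOpen_upperHalfPlaneSet
  have hev : (qFun ∘ ofComplex) =ᶠ[𝓝 (z : ℂ)] 𝕢 1 := by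
    filter_upwards [hopen.mem_nhds z.im_pos] with w hw
    simp only [comp_apply, ofComplex_apply_of_im_pos hw, qFun_apply]
  unfold normalizedDerivOfComplex
  rw [hev.deriv_eq, (Fermat.Agent.X0.hasDerivAt_qParam_one (z : ℂ)).deriv, qFun_apply]
  have h2 : (2 * π * Complex.I : ℂ) ≠ 0 := by simp [Real.pi_ne_zero]
  field_simp

theorem mdiff_qFun : MDiff qFun := isNice_qFun.2.1

/-- A function `F` such that `q^m F` is holomorphic is holomorphic. -/
theorem mdiff_of_qFun_pow_mul {F : ℍ → ℂ} {m : ℕ} (h : MDiff (qFun ^ m * F)) : MDiff F := by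
  rw [UpperHalfPlane.mdifferentiable_iff] at h ⊢
  have hq : DifferentiableOn ℂ ((qFun ^ m) ∘ ofComplex) upperHalfPlaneSet :=
    UpperHalfPlane.mdifferentiable_iff.mp (mdiff_qFun.pow m)
  have hne : ∀ w ∈ upperHalfPlaneSet, ((qFun ^ m) ∘ ofComplex) w ≠ 0 := fun w _ => by
    simp only [comp_apply, Pi.pow_apply]
    exact pow_ne_zero _ (qFun_ne_zero _)
  refine (h.div hq hne).congr fun w _ => ?_
  simp only [comp_apply, Pi.div_apply, Pi.mul_apply, Pi.pow_apply]
  have hq0 : qFun (ofComplex w) ^ m ≠ 0 := pow_ne_zero _ (qFun_ne_zero _)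
  field_simp

/-- `q^m · D F = D (q^m F) - m · q^m F`. -/
theorem qFun_pow_mul_D {F : ℍ → ℂ} {m : ℕ} (h : MDiff (qFun ^ m * F)) :
    qFun ^ m * D F = D (qFun ^ m * F) - (m : ℂ) • (qFun ^ m * F) := by
  have hF : MDiff F := mdiff_of_qFun_pow_mul h
  rw [normalizedDerivOfComplex_mul _ _ (mdiff_qFun.pow m) hF,
    normalizedDerivOfComplex_pow _ _ mdiff_qFun, D_qFun]
  rcases m with _ | m
  · funext z
    simp
  · funext z
    simp only [Pi.add_apply, Pi.mul_apply, Pi.pow_apply, Pi.sub_apply, Pi.smul_apply, smul_eq_mul,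
      Nat.add_sub_cancel, Pi.natCast_apply]
    push_cast
    ring

/-- `D` preserves meromorphy at `i∞`, with the same pole bound. -/
theorem isNice_qFun_pow_mul_D {F : ℍ → ℂ} {m : ℕ} (h : IsNice (qFun ^ m * F)) :
    IsNice (qFun ^ m * D F) := by
  rw [qFun_pow_mul_D h.2.1]
  exact (isNice_D h).sub (h.smul _)

theorem isMerCusp_D {F : ℍ → ℂ} (hF : IsMerCusp F) : IsMerCusp (D F) := by
  obtain ⟨m, hm⟩ := hF
  exact ⟨m, isNice_qFun_pow_mul_D hm⟩

/-- The coefficients of `laurentOf m P`. -/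
theorem coeff_laurentOf (m : ℕ) (P : PowerSeries ℂ) (n : ℤ) :
    (laurentOf m P).coeff n =
      if 0 ≤ n + m then PowerSeries.coeff (n + m).toNat P else 0 := by
  unfold laurentOf
  rw [HahnSeries.coeff_single_mul, one_mul, sub_neg_eq_add]
  split_ifs with h
  · obtain ⟨k, hk⟩ := Int.eq_ofNat_of_zero_le h
    rw [hk, HahnSeries.ofPowerSeries_apply_coeff, Int.toNat_natCast]
  · exact ModularCurve.ofPowerSeries_coeff_of_neg _ (not_le.mp h)

/-- **The Laurent `q`-expansion of the normalised derivative** is `θ = q d/dq` of the Laurent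
`q`-expansion. -/
theorem qexpL_D {F : ℍ → ℂ} (hF : IsMerCusp F) : qexpL (D F) = thetaL ℂ (qexpL F) := by
  obtain ⟨m, hm⟩ := hF
  rw [qexpL_eq (isNice_qFun_pow_mul_D hm), qexpL_eq hm]
  ext n
  rw [coeff_thetaL, coeff_laurentOf, coeff_laurentOf]
  split_ifs with h
  · obtain ⟨k, hk⟩ := Int.eq_ofNat_of_zero_le h
    rw [hk, Int.toNat_natCast, qFun_pow_mul_D hm.2.1, (isNice_D hm).qExpansion_sub (hm.smul _),
      hm.qExpansion_smul, map_sub, Fermat.Agent.Eis.QD.qExpansion_D_coeff hm,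
      PowerSeries.coeff_smul, smul_eq_mul]
    have hn : (n : ℂ) = (k : ℂ) - (m : ℂ) := by
      have : n = (k : ℤ) - (m : ℤ) := by omega
      rw [this]
      push_cast
      ring
    rw [hn]
    ring
  · rw [mul_zero]

end Fermat.Agent.FF4.K8
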