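import Mathlib
import Fermat.Agent.FF4.K8.QexpD
import Fermat.Agent.X0.RR7.Existence
import Fermat.Agent.X0.ModDeg
import Fermat.Agent.S23.Rational

/-!
# PROGRAMME II, kernel K8, leaf Q4 (part 2): the `q`-expansion of the cusp form of a holomorphic
differential

For `h ∈ holDiff ℚ̄ (jBar N)` (the place form of the holomorphic differentials `h dj` of `X₀(N)`,
X0/RR7) the weight-2 cusp form `f = Ψ(h) · D j` of X0/RR7 (`hasCuspFormOf_of_mem_holDiff`) has the
`q`-expansion `h · θ j` (coefficients transported along `iotaC : ℚ̄ → ℂ`):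

`exists_cuspForm_qexp : ∃ f, cuspL N f = coeffMap iotaC (h * θ (coeffEmb ℚ̄ jq))`.

Also: a general intertwining lemma for words in a free algebra (`lift_intertwine`).
-/

set_option autoImplicit false

noncomputable section

namespace Fermat.Agent.FF4.K8

open UpperHalfPlane Function HahnSeries Derivative ModularCurve CongruenceSubgroup
open Fermat.Agent.S23 Fermat.Agent.X0 Fermat.Agent.X0.RR7
open Fermat.Agent.BR3.IgSq (thetaL coeff_thetaL)
open scoped Manifold MatrixGroups

/-! ### `θ` and change of coefficients -/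

theorem thetaL_coeffMap {R S : Type*} [CommRing R] [CommRing S] (φ : R →+* S)
    (y : LaurentSeries R) : thetaL S (coeffMap φ y) = coeffMap φ (thetaL R y) := by
  ext n
  rw [coeff_thetaL, coeffMap_coeff, coeffMap_coeff, coeff_thetaL, map_mul, map_intCast]

/-! ### The Laurent `q`-expansion of a cusp form -/

/-- The `q`-expansion of a weight-2 cusp form on `Γ₀(N)`, as a Laurent series. -/
def cuspL (N : ℕ) [NeZero N] : CuspForm (Gamma0 N) 2 →+ LaurentSeries ℂ where
  toFun f := HahnSeries.ofPowerSeries ℤ ℂ (qExpansion 1 f)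
  map_zero' := by
    have h : qExpansion 1 (⇑(0 : CuspForm (Gamma0 N) 2)) = 0 := by
      have h0 : (⇑(0 : CuspForm (Gamma0 N) 2) : ℍ → ℂ) = (0 : ℂ) • (1 : ℍ → ℂ) := by
        ext z; simp
      rw [h0, isNice_one.qExpansion_smul, zero_smul]
    rw [h, map_zero]
  map_add' f g := by
    have h := (isNice_cuspForm_Gamma0 f).qExpansion_add (isNice_cuspForm_Gamma0 g)
    have hc : (⇑(f + g) : ℍ → ℂ) = ⇑f + ⇑g := rfl
    rw [hc, h, map_add]

theorem cuspL_apply (N : ℕ) [NeZero N] (f : CuspForm (Gamma0 N) 2) :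
    cuspL N f = HahnSeries.ofPowerSeries ℤ ℂ (qExpansion 1 f) := rfl

theorem cuspL_eq_qexpL (N : ℕ) [NeZero N] (f : CuspForm (Gamma0 N) 2) :
    cuspL N f = qexpL (f : ℍ → ℂ) :=
  (qexpL_of_isNice (isNice_cuspForm_Gamma0 f)).symm

theorem coeff_cuspL_natCast (N : ℕ) [NeZero N] (f : CuspForm (Gamma0 N) 2) (n : ℕ) :
    (cuspL N f).coeff (n : ℤ) = (qExpansion 1 f).coeff n := by
  rw [cuspL_apply, HahnSeries.ofPowerSeries_apply_coeff]

theorem coeff_cuspL_of_neg (N : ℕ) [NeZero N] (f : CuspForm (Gamma0 N) 2) {n : ℤ} (hn : n < 0) :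
    (cuspL N f).coeff n = 0 := by
  rw [cuspL_apply]
  exact ModularCurve.ofPowerSeries_coeff_of_neg _ hn

/-! ### The `q`-expansion of `D j` -/

theorem isMerCusp_D_jFun : IsMerCusp (D jFun) := by
  rw [← jAn_eq_jFun]
  exact isMerCusp_D isMerCusp_jAn

theorem qexpL_D_jFun : qexpL (D jFun) = thetaL ℂ (coeffMap (algebraMap ℚ ℂ) jq) := by
  rw [← jAn_eq_jFun, qexpL_D isMerCusp_jAn, qexpL_jAn]

/-! ### Q4 -/

/-- **Q4**: the cusp form attached by X0/RR7 to `h ∈ holDiff ℚ̄ (jBar N)` has the `q`-expansion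
`h · θ j`. -/
theorem exists_cuspForm_qexp (N : ℕ) [NeZero N] {h : Fb N}
    (hh : h ∈ holDiff Kb (jBar N)) :
    ∃ f : CuspForm (Gamma0 N) 2,
      cuspL N f =
        coeffMap iotaC (((h : Fb N) : LaurentSeries Kb) * thetaL Kb (coeffEmb Kb jq)) := by
  obtain ⟨a, b, f, hb, hab, hrel⟩ := hasCuspFormOf_of_mem_holDiff N (jBar_isSepVar N) hh
  refine ⟨f, ?_⟩
  -- the relation as an identity of functions, then of Laurent series
  have hfun : Psi N b * (f : ℍ → ℂ) = Psi N a * D jFun := funext hrel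
  have hf : IsMerCusp (f : ℍ → ℂ) := isMerCusp_of_isNice (isNice_cuspForm_Gamma0 f)
  have hL := congrArg qexpL hfun
  rw [qexpL_mul (isMerCusp_Psi N b) hf, qexpL_mul (isMerCusp_Psi N a) isMerCusp_D_jFun,
    qexpL_Psi, qexpL_Psi, qexpL_D_jFun, ← cuspL_eq_qexpL] at hL
  -- `b ≠ 0` as a Laurent series over `ℂ`
  have hb0 : coeffMap iotaC (((b : Rb N) : Fb N) : LaurentSeries Kb) ≠ 0 := by
    intro h0
    apply hb
    have h1 : (((b : Rb N) : Fb N) : LaurentSeries Kb) = 0 :=
      coeffMap_injective iotaC iotaC_injective (by rw [h0, map_zero])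
    exact Subtype.ext (Subtype.ext h1)
  -- `h * b = a` in `ℚ̄((q))`
  have hbF : ((b : Rb N) : Fb N) ≠ 0 := fun h0 => hb (Subtype.ext h0)
  have hhb : ((h : Fb N) : LaurentSeries Kb) * (((b : Rb N) : Fb N) : LaurentSeries Kb) =
      (((a : Rb N) : Fb N) : LaurentSeries Kb) := by
    have h1 : h * ((b : Rb N) : Fb N) = ((a : Rb N) : Fb N) := by
      rw [hab, div_mul_cancel₀ _ hbF]
    have h2 := congrArg (fun x : Fb N => (x : LaurentSeries Kb)) h1
    simpa using h2
  apply mul_left_cancel₀ hb0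
  rw [hL, map_mul, ← thetaL_coeffMap, coeffMap_iotaC_coeffEmb, ← mul_assoc, ← map_mul,
    mul_comm (((b : Rb N) : Fb N) : LaurentSeries Kb), hhb]

/-! ### Words in a free algebra and intertwining maps -/

/-- If an additive map `Φ` intertwines the generators, it intertwines every word. -/
theorem lift_intertwine {ι : Type*} {R R' M M' : Type*} [CommRing R] [AddCommGroup M]
    [Module R M] [CommRing R'] [AddCommGroup M'] [Module R' M'] (Φ : M →+ M')
    (A : ι → Module.End R M) (B : ι → Module.End R' M')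
    (hAB : ∀ i m, Φ (A i m) = B i (Φ m)) (w : FreeAlgebra ℤ ι) (m : M) :
    Φ (FreeAlgebra.lift ℤ A w m) = FreeAlgebra.lift ℤ B w (Φ m) := by
  induction w using FreeAlgebra.induction generalizing m with
  | grade0 r =>
    rw [AlgHom.commutes, AlgHom.commutes, eq_intCast (algebraMap ℤ (Module.End R M)) r,
      eq_intCast (algebraMap ℤ (Module.End R' M')) r, Module.End.intCast_apply,
      Module.End.intCast_apply, map_zsmul]
  | grade1 x => rw [FreeAlgebra.lift_ι_apply, FreeAlgebra.lift_ι_apply, hAB]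
  | mul a b ha hb => rw [map_mul, map_mul, Module.End.mul_apply, Module.End.mul_apply, ha, hb]
  | add a b ha hb => rw [map_add, map_add, LinearMap.add_apply, LinearMap.add_apply, map_add, ha, hb]

end Fermat.Agent.FF4.K8
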