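import Mathlib
import Fermat.Agent.FF4.K8.Q4Core
import Fermat.Agent.FF4.K8Series.FreeHecke
import Fermat.Agent.S49.Forms

/-!
# PROGRAMME II, kernel K8, leaf Q4 (part 3): Hecke words killing `S₂(Γ₀(N))` kill `h · θ j`

In the vocabulary of helper15's `FF4/K8Series/{Theta,FreeHecke}` (`theta`, `T2`, `liftT2`), which is
the vocabulary of the contract `FF4/K8/Contract.lean` (v2):

* `thetaL_eq_theta` : the landed `BR3.IgSq.thetaL` is `K8Series.theta`;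
* `cuspL_heckeFam` : for `ℓ ∤ N` the `q`-expansion of `T_ℓ f` is `T2 ℓ` of the `q`-expansion of `f`;
* `liftT2_cuspL` : the same for words;
* `q4` : **Q4** — if a word `w` in the `T_ℓ` (`ℓ ∤ N`) kills `S₂(Γ₀(N))`, then `liftT2 ℓ w` kills
  `h · θ j` in `ℚ̄((q))` for every `h ∈ holDiff ℚ̄ (jBar N)`.
-/

set_option autoImplicit false

noncomputable section

namespace Fermat.Agent.FF4.K8

open UpperHalfPlane Function HahnSeries ModularCurve CongruenceSubgroup ModularFormClass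
open Fermat.Agent.X0 Fermat.Agent.X0.RR7 Fermat.Agent.S49 Fermat.Agent.FF4.K8Series
open Fermat.Agent.BR3.IgSq (thetaL coeff_thetaL)
open scoped Manifold MatrixGroups

/-- The landed `θ` of BR3/IgSq is the `θ` of FF4/K8Series. -/
theorem thetaL_eq_theta {R : Type*} [CommRing R] (f : LaurentSeries R) : thetaL R f = theta f := by
  ext n
  rw [coeff_thetaL, theta_coeff]

/-- The `q`-expansion of `T_ℓ f` (`ℓ ∤ N`) is the formal Hecke operator `T2 ℓ` of the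
`q`-expansion. -/
theorem cuspL_heckeFam (N : ℕ) [NeZero N] (ℓ : Nat.Primes) [NeZero (ℓ : ℕ)] (hℓ : ¬ (ℓ : ℕ) ∣ N)
    (f : CuspForm (Gamma0 N) 2) :
    cuspL N (heckeFam N ℓ f) = T2 (ℓ : ℕ) (cuspL N f) := by
  have hpos : 0 < (ℓ : ℕ) := ℓ.2.pos
  have hℓ0 : (0 : ℤ) < ((ℓ : ℕ) : ℤ) := by exact_mod_cast hpos
  have heps : lvlEps N (ℓ : ℕ) = 1 := by
    unfold lvlEps
    rw [if_neg hℓ]
  ext n
  rcases lt_or_ge n 0 with hn | hn
  · -- negative indices: everything vanishes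
    rw [coeff_cuspL_of_neg N _ hn]
    by_cases hd : ((ℓ : ℕ) : ℤ) ∣ n
    · obtain ⟨m, rfl⟩ := hd
      have hm : m < 0 := by
        by_contra hm
        have : 0 ≤ ((ℓ : ℕ) : ℤ) * m := mul_nonneg hℓ0.le (not_lt.mp hm)
        omega
      rw [T2_coeff_mul, coeff_cuspL_of_neg N f hm, coeff_cuspL_of_neg N f (by nlinarith),
        mul_zero, add_zero]
    · rw [T2_coeff_of_not_dvd _ _ hd, coeff_cuspL_of_neg N f (by nlinarith)]
  · obtain ⟨k, rfl⟩ := Int.eq_ofNat_of_zero_le hn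
    have h1 := qCoeff_heckeFam (N := N) ℓ f k
    rw [heps] at h1
    unfold qCoeff at h1
    rw [coeff_cuspL_natCast, h1]
    have hdvd : (((ℓ : ℕ) : ℤ) ∣ (k : ℤ)) ↔ ((ℓ : ℕ) ∣ k) := Int.natCast_dvd_natCast
    by_cases hd : (ℓ : ℕ) ∣ k
    · obtain ⟨m, rfl⟩ := hd
      rw [if_pos (Dvd.intro m rfl), Nat.mul_div_cancel_left m hpos]
      have e0 : (((ℓ : ℕ) * m : ℕ) : ℤ) = ((ℓ : ℕ) : ℤ) * (m : ℤ) := by push_cast; ring
      have e1 : ((ℓ : ℕ) : ℤ) * (((ℓ : ℕ) : ℤ) * (m : ℤ)) = (((ℓ : ℕ) * m * (ℓ : ℕ) : ℕ) : ℤ) := by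
        push_cast; ring
      rw [e0, T2_coeff_mul, e1, coeff_cuspL_natCast, coeff_cuspL_natCast]
      push_cast
      ring
    · rw [if_neg hd, T2_coeff_of_not_dvd _ _ (fun h => hd (hdvd.mp h))]
      have e1 : ((ℓ : ℕ) : ℤ) * (k : ℤ) = ((k * (ℓ : ℕ) : ℕ) : ℤ) := by push_cast; ring
      rw [e1, coeff_cuspL_natCast]
      push_cast
      ring

/-- The `q`-expansion intertwines every word in the `T_ℓ`, `ℓ ∤ N`, with the formal word. -/
theorem liftT2_cuspL (N : ℕ) [NeZero N] {ι : Type*} (ℓ : ι → Nat.Primes)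
    (hℓ : ∀ i, ¬ ((ℓ i : ℕ) ∣ N)) (w : FreeAlgebra ℤ ι) (f : CuspForm (Gamma0 N) 2) :
    liftT2 (R := ℂ) ℓ w (cuspL N f) =
      cuspL N (FreeAlgebra.lift ℤ (fun i => heckeFam N (ℓ i)) w f) := by
  unfold liftT2
  refine (lift_intertwine (cuspL N) (fun i => heckeFam N (ℓ i)) (T2fam (R := ℂ) ℓ)
    (fun i m => ?_) w f).symm
  haveI : NeZero ((ℓ i : Nat.Primes) : ℕ) := ⟨(ℓ i).2.ne_zero⟩
  rw [T2fam_apply]
  exact cuspL_heckeFam N (ℓ i) (hℓ i) m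

/-- **Q4 over `ℂ`**: a word in the `T_ℓ`, `ℓ ∤ N`, which kills `S₂(Γ₀(N))` kills (as a formal
word) the `q`-expansion of every cusp form. -/
theorem word_cuspL_eq_zero (N : ℕ) [NeZero N] {ι : Type*} (ℓ : ι → Nat.Primes)
    (hℓ : ∀ i, ¬ ((ℓ i : ℕ) ∣ N)) (w : FreeAlgebra ℤ ι)
    (hw : FreeAlgebra.lift ℤ (fun i => heckeFam N (ℓ i)) w = 0)
    (f : CuspForm (Gamma0 N) 2) :
    liftT2 (R := ℂ) ℓ w (cuspL N f) = 0 := by
  rw [liftT2_cuspL N ℓ hℓ w f, hw, LinearMap.zero_apply, map_zero]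

/-- **Q4**: if a word `w` in the Hecke operators `T_ℓ`, `ℓ ∤ N`, kills `S₂(Γ₀(N))`, then the formal
word in the `T2 ℓ = U_ℓ + ℓ V_ℓ` kills `h · θ j ∈ ℚ̄((q))` for every `h ∈ holDiff ℚ̄ (jBar N)`. -/
theorem q4 (N : ℕ) [NeZero N] {ι : Type*} (ℓ : ι → Nat.Primes)
    (hℓ : ∀ i, ¬ ((ℓ i : ℕ) ∣ N)) (w : FreeAlgebra ℤ ι)
    (hw : FreeAlgebra.lift ℤ (fun i => heckeFam N (ℓ i)) w = 0)
    (h : Fb N) (hh : h ∈ holDiff Kb (jBar N)) :
    liftT2 (R := Kb) ℓ w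
      (((h : Fb N) : LaurentSeries Kb) * theta (((jBar N : Fb N)) : LaurentSeries Kb)) = 0 := by
  obtain ⟨f, hf⟩ := exists_cuspForm_qexp N hh
  have h1 := word_cuspL_eq_zero N ℓ hℓ w hw f
  rw [hf, thetaL_eq_theta] at h1
  rw [coe_jBar]
  exact liftT2_eq_zero_of_coeffMap ℓ iotaC iotaC_injective w _ h1

end Fermat.Agent.FF4.K8
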