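import Mathlib
import Fermat.Agent.FF4.K8.Contract
import Fermat.Agent.FF4.K8.Q4
import Fermat.Agent.FF4.K8.RedDerModular
import Fermat.Agent.FF4.K8.ThetaGauss
import Fermat.Agent.FF4.K8Series.GaussHecke

/-!
# PROGRAMME II, kernel K8 (owner helper19): `K8q (c)` is a theorem

`k8qC : K8qC N hpN A hA`: a word `w` in the Hecke operators `T_ℓ`, `ℓ ∤ N p`, killing `S₂(Γ₀(N))`
kills `h̃ · θ j̃` for every `h̃ ∈ R̃ = res (holDiff(F̄_N, j) ∩ O)`.

Proof.  `h̃ = res h` with `h ∈ holDiff ∩ O`; `y := ↑h · θ ↑j` lies in the LOCALISED Gauss ring of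
`ℚ̄((q))` and its Gauss residue is `↑h̃ · θ j̃` (`redS` is Gauss: `IsGauss`; helper23's
`gaussResA_theta`, `gaussResA_jBar`); `w y = 0` in `ℚ̄((q))` (helper18's `q4`); polynomials in the
`T_ℓ`, `ℓ ≠ p`, preserve the Gauss ring and commute with the Gauss residue (helper15's
`liftT2_gaussResA_eq_zero`; referee's repair (R2)).
-/

set_option autoImplicit false
set_option linter.unusedSectionVars false
set_option linter.style.haveILetI false

open ModularCurve AlgebraicCurve IntermediateField IsLocalRing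

noncomputable section

namespace Fermat.Agent.FF4.K8

open Fermat.Agent.Val Fermat.Agent.X0 Fermat.Agent.FF4.K8Series Fermat.Agent.FF2.G2I

variable (N : ℕ) [NeZero N] {p : ℕ} [hp : Fact p.Prime] (hpN : ¬ p ∣ N)
variable (A : ValuationSubring (AlgebraicClosure ℚ)) (hA : A.LiesOverPrime p)

/-- **K8q (c).** -/
theorem k8qC : K8qC N hpN A hA := by
  intro ι ℓ hℓ w hw ht hht
  obtain ⟨h, hh, hhO, hres⟩ := hht
  have hG : Fermat.Agent.Jac.RedHecke.IsGauss (redS N hpN A hA).toConstRed :=
    Fermat.Agent.Jac.RedHecke.isGauss_constRed (orthoDataQbar A N hA hpN) (residue_hπ A)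
      (residue_surjective' A)
  have hy' : ((h : Fb N) : LaurentSeries Kb) ∈ gaussRingA A (residue A) := (hG.mem_iff h).mp hhO
  have hj := coe_jBar_mem_gaussRingA N A
  have hθj := theta_mem_gaussRingA A (residue A) hj
  have hy : ((h : Fb N) : LaurentSeries Kb) * theta ((jBar N : Fb N) : LaurentSeries Kb) ∈
      gaussRingA A (residue A) := mul_mem hy' hθj
  -- the Gauss residue of `y`
  have hresy : gaussResA A (residue A) ⟨_, hy⟩ =
      ((ht : modularFunctionFieldFullC (ResidueField A) N) : LaurentSeries (ResidueField A)) *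
        theta (jqModC (ResidueField A)) := by
    have hmul : (⟨_, hy⟩ : gaussRingA A (residue A)) =
        ⟨((h : Fb N) : LaurentSeries Kb), hy'⟩ *
          ⟨theta ((jBar N : Fb N) : LaurentSeries Kb), hθj⟩ := rfl
    rw [hmul, map_mul, gaussResA_theta A (residue A) hj, gaussResA_jBar,
      ← hG.res_eq ⟨h, hhO⟩ hy', ← hres, (redS N hpN A hA).resF_of_mem hhO]
    rfl
  -- the word kills `y`
  have hℓN : ∀ i, ¬ ((ℓ i : ℕ) ∣ N) := fun i hd => hℓ i (Dvd.dvd.mul_right hd p)
  have h0 := q4 N ℓ hℓN w hw h hh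
  -- the primes are different from the residue characteristic
  have he : ∀ i, (((ℓ i : Nat.Primes) : ℕ) : ResidueField A) ≠ 0 := by
    intro i hzero
    haveI : CharP (ResidueField A) p := charP_residueField_of_liesOverPrime A hA
    have hd : p ∣ ((ℓ i : Nat.Primes) : ℕ) := (CharP.cast_eq_zero_iff (ResidueField A) p _).mp hzero
    have heq : p = ((ℓ i : Nat.Primes) : ℕ) := (Nat.prime_dvd_prime_iff_eq hp.out (ℓ i).2).mp hd
    exact hℓ i (heq ▸ dvd_mul_left p N)
  have h1 := liftT2_gaussResA_eq_zero A ℓ he w hy h0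
  rw [hresy] at h1
  exact h1

end Fermat.Agent.FF4.K8
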