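import Mathlib
import Fermat.Agent.FF4.K8.Contract
import Fermat.Agent.FF4.K8.AssemblyA
import Fermat.Agent.FF4.K8.AssemblyB
import Fermat.Agent.FF4.K8.K8qC
import Fermat.Agent.FF4.K8.EndGame

/-!
# PROGRAMME II, kernel K8 (owner helper19): `K8q` IS A THEOREM

`k8q : K8q N hpN A hA` for every level `N ≥ 1`, every prime `p ∤ N` (`p = 2, 3` included) and every
valuation subring `A` of `ℚ̄` over `p`; and the consumer form `k8_final` (the hypothesis-free
version of `k8_endgame`).

* `k8qA` (helper22, on helper28's `L-DER`/`logDeriv_mem_HOL`, helper23's `RedDer` pair,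
  helper2's `Dlog`, the landed char-free Serre duality `FF/RRCoreDiff` and the landed reduction
  theory `Red/*`, `Val/*`, `Good/*`);
* `k8qB` (helper2, `θ g̃ = 0 ⇔ g̃ ∈ F̃ᵖ`);
* `k8qC` (helper18's `q4` on the landed `X0/RR7`, helper15's Gauss-ring Hecke operators).
-/

set_option autoImplicit false
set_option linter.unusedSectionVars false

noncomputable section

namespace Fermat.Agent.FF4.K8

open AlgebraicCurve ModularCurve IsLocalRing HahnSeries
open Fermat.Agent.FF4.K8Series (theta liftT2 T2fam)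

variable (N : ℕ) [NeZero N] {p : ℕ} [hp : Fact p.Prime] (hpN : ¬ p ∣ N)
variable (A : ValuationSubring (AlgebraicClosure ℚ)) (hA : A.LiesOverPrime p)

/-- **K8q.** -/
theorem k8q : K8q N hpN A hA :=
  ⟨k8qA N hpN A hA, k8qB N hpN A hA, k8qC N hpN A hA⟩

include hpN hA in
/-- **K8, final consumer form** (Case I of the end game): a function `g̃ ∈ F̃_N^×` all of whose
orders are divisible by `p`, whose logarithmic derivative `θ g̃ / g̃` is an eigen-series of the formal
Hecke operators `T_{ℓ i}` (`ℓ i ∤ N p`) with eigenvalues `a i`, is a `p`-th power as soon as some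
word `w` in the `T_{ℓ i}` kills `S₂(Γ₀(N))` while `a(w) ≠ 0`. -/
theorem k8_final {ι : Type} (ℓ : ι → Nat.Primes)
    (hℓ : ∀ i, ¬ ((ℓ i : ℕ) ∣ N * p)) (w : FreeAlgebra ℤ ι)
    (hw : FreeAlgebra.lift ℤ (fun i => Fermat.Agent.S49.heckeFam N (ℓ i)) w = 0)
    (a : ι → ResidueField A) (ha : FreeAlgebra.lift ℤ a w ≠ 0)
    (g : ↥(modularFunctionFieldFullC (ResidueField A) N)) (hg : g ≠ 0)
    (hdiv : ∀ Q : Place (ResidueField A) ↥(modularFunctionFieldFullC (ResidueField A) N),
      (p : ℤ) ∣ Q.ord g)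
    (heig : ∀ i, T2fam (R := ResidueField A) ℓ i
        (theta (g : LaurentSeries (ResidueField A)) / (g : LaurentSeries (ResidueField A))) =
      a i • (theta (g : LaurentSeries (ResidueField A)) / (g : LaurentSeries (ResidueField A)))) :
    ∃ h : ↥(modularFunctionFieldFullC (ResidueField A) N), h ^ p = g :=
  k8_endgame N hpN A hA (k8q N hpN A hA) ℓ hℓ w hw a ha g hg hdiv heig

end Fermat.Agent.FF4.K8
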